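/-
S35-GEO, leaf (STEP1-FROB) of helper27's tree (report #2985) — helper7.

Step 1 of the chain of `S34/H7/Step1Supply.lean` for an automorphism `S` which is NOT congruent
to the identity modulo the uniformiser (a Frobenius lift): the Cartier form of `S u / u` at a
closed point `x` of a chart, from the local data of `u` at `x` AND at `x' = S⁻¹ x`.

`C` a noetherian integrally closed chart with fraction field `F`, `π` the uniformiser of the
base, `S` an automorphism of `F` preserving `C` with `π ∈ S(π) C`, `x` a prime of `C`,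
`x' = frobComap C S hSC x = {c | S c ∈ x}`.

* `exists_root_at` : the local root of `u` at a point (`H7.exists_root_of_local_eqs` with the
  suppliers of `Step1Supply`).
* `step1_frob_at`, `step1_frob_chart` : if `u` has local roots at `x` and at `x'`, and either
  (a) `x' = x` and `S` preserves every vertical height-one local ring through `x`, or
  (b) all vertical height-one local rings through `x` are equal to one `S`-stable valuation
      ring `V₁` of which `π` is a uniformiser,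
  then `S u / u * b = a * g ^ m` with `a, b ∈ C ∖ x`.
* `vertical_cases` : in a two-component model (`V₁`, `V₂` with uniformiser `ϖ`, `C ⊆ V₁ ∩ V₂`
  saturated) every vertical height-one local ring of `C` is `V₁` or `V₂`.
* `cartier_frob_of_pointOK` : the assembly in the vocabulary of `H30.VData.Good` /
  `H30.cartier_of_pointOK`, with the point types of helper27's `PointFrob`.
-/
import Fermat.Agent.S34.H7.Step1Supply
import Fermat.Agent.S34.H54.KrullAut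

set_option autoImplicit false
set_option linter.unusedSectionVars false
set_option linter.unusedVariables false
set_option linter.style.haveILetI false

namespace Fermat.Agent.S35.H7

open Fermat.Agent.S34.H7 Fermat.Agent.S34

/-! ### A discrete valuation ring is a maximal proper valuation subring -/

section DVR

variable {F : Type*} [Field F]

/-- A valuation subring containing a discrete valuation ring `V`, in which some nonzero
nonunit of `V` is still a nonunit, is equal to `V`. -/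
theorem eq_of_le_of_isDVR (V V' : ValuationSubring F) [IsDiscreteValuationRing V]
    (hle : ∀ y ∈ V, y ∈ V') (π : F) (hπ0 : π ≠ 0) (hπV : π ∈ V.nonunits)
    (hπV' : π ∈ V'.nonunits) : V = V' := by
  ext z
  refine ⟨hle z, fun hz' => ?_⟩
  by_contra hzV
  have hz0 : z ≠ 0 := by
    rintro rfl
    exact hzV V.zero_mem
  obtain ⟨p, hp⟩ := IsDiscreteValuationRing.exists_irreducible ↥V
  have hp0 : (p : F) ≠ 0 := fun h => hp.ne_zero (Subtype.ext h)
  obtain ⟨n, hn⟩ := exists_zpow_isU_irreducible V p hp z⁻¹ (inv_ne_zero hz0)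
  obtain ⟨k, hk⟩ := exists_zpow_isU_irreducible V p hp π hπ0
  -- powers of `p` with nonnegative exponent lie in `V`
  have hpow : ∀ j : ℤ, 0 ≤ j → (p : F) ^ j ∈ V := by
    intro j hj
    obtain ⟨j', rfl⟩ := Int.eq_ofNat_of_zero_le hj
    rw [zpow_natCast]
    exact V.pow_mem p.2 j'
  have hn1 : 0 < n := by
    by_contra hneg
    apply hzV
    have hpn : (p : F) ^ n ≠ 0 := zpow_ne_zero n hp0
    have e : z = (z⁻¹ / (p : F) ^ n)⁻¹ * (p : F) ^ (-n) := by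
      rw [inv_div, zpow_neg]
      field_simp
    rw [e]
    exact V.mul_mem _ _ hn.2 (hpow _ (by omega))
  have hk1 : 0 < k := by
    by_contra hneg
    have hpk : (p : F) ^ k ≠ 0 := zpow_ne_zero k hp0
    have e : π⁻¹ = (π / (p : F) ^ k)⁻¹ * (p : F) ^ (-k) := by
      rw [inv_div, zpow_neg]
      field_simp
    have h1 : π⁻¹ ∈ V := by
      rw [e]
      exact V.mul_mem _ _ hk.2 (hpow _ (by omega))
    rw [ValuationSubring.mem_nonunits_iff_or] at hπV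
    rcases hπV with h | h
    · exact hπ0 h
    · exact h h1
  obtain ⟨N, rfl⟩ := Int.eq_ofNat_of_zero_le hn1.le
  obtain ⟨K, rfl⟩ := Int.eq_ofNat_of_zero_le hk1.le
  rw [zpow_natCast] at hn hk
  have hN : 0 < N := by exact_mod_cast hn1
  -- `w = (z⁻¹ / p ^ N) ^ K / (π / p ^ K) ^ N` is a unit of `V`
  have hw : IsU V ((z⁻¹ / (p : F) ^ N) ^ K / (π / (p : F) ^ K) ^ N) := (hn.pow K).div (hk.pow N)
  have e : π * (π ^ (N - 1) * ((z⁻¹ / (p : F) ^ N) ^ K / (π / (p : F) ^ K) ^ N) * z ^ K) = 1 := by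
    have hπN : π * π ^ (N - 1) = π ^ N := by
      rw [← pow_succ']
      congr 1
      omega
    have hpN : (p : F) ^ N ≠ 0 := pow_ne_zero N hp0
    have hpK : (p : F) ^ K ≠ 0 := pow_ne_zero K hp0
    have hπN0 : π ^ N ≠ 0 := pow_ne_zero N hπ0
    have hzK : z ^ K ≠ 0 := pow_ne_zero K hz0
    calc π * (π ^ (N - 1) * ((z⁻¹ / (p : F) ^ N) ^ K / (π / (p : F) ^ K) ^ N) * z ^ K)
        = π ^ N * ((z⁻¹ / (p : F) ^ N) ^ K / (π / (p : F) ^ K) ^ N) * z ^ K := by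
          rw [← hπN]; ring
      _ = 1 := by
          rw [div_pow, div_pow, inv_pow, ← pow_mul, ← pow_mul, mul_comm N K]
          field_simp
  have hπinv : π⁻¹ ∈ V' := by
    have h1 : π⁻¹ = π ^ (N - 1) * ((z⁻¹ / (p : F) ^ N) ^ K / (π / (p : F) ^ K) ^ N) * z ^ K :=
      (eq_inv_of_mul_eq_one_right e).symm ▸ rfl
    rw [h1]
    exact V'.mul_mem _ _ (V'.mul_mem _ _ (V'.pow_mem (V'.nonunits_subset hπV') _) (hle _ hw.1))
      (V'.pow_mem hz' K)
  rw [ValuationSubring.mem_nonunits_iff_or] at hπV'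
  rcases hπV' with h | h
  · exact hπ0 h
  · exact h hπinv

end DVR

/-! ### The abstract core -/

section Abstract

variable {C : Type*} [CommRing C] [IsDomain C] {F : Type*} [Field F] [Algebra C F]
  [IsFractionRing C F] [IsNoetherianRing C] [IsIntegrallyClosed C]

/-- **The local root at a point.**  If the order of `u` at every horizontal height-one prime
through `x` is divisible by `m` and every such prime in the support of `u` has a saturated
generator at `x`, then `u / g ^ m` is a unit at every horizontal height-one local ring through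
`x`, for some `g ≠ 0`. -/
theorem exists_root_at (x : Ideal C) [hx : x.IsPrime] (π : C) (hπ0 : π ≠ 0)
    (m : ℕ) (u : F) (hu : u ≠ 0)
    (hdiv : ∀ V ∈ heightOneVals F x, (algebraMap C F π)⁻¹ ∈ V →
      ∃ t : F, t ≠ 0 ∧ IsU V (u / t ^ m))
    (hgen : ∀ P : Ideal C, P.IsPrime → P.height = 1 → P ≤ x → π ∉ P →
      (∀ V : ValuationSubring F, IsLocAt P V → ¬ IsU V u) →
      ∃ f ∈ P, ∀ y ∈ P, ∃ s : C, s ∉ x ∧ ∃ (n : ℕ) (c : C), s * π ^ n * y = f * c) :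
    ∃ g : F, g ≠ 0 ∧
      ∀ V ∈ heightOneVals F x, (algebraMap C F π)⁻¹ ∈ V → IsU V (u / g ^ m) := by
  obtain ⟨g, hg0, hg⟩ := exists_root_of_local_eqs
    {V | V ∈ heightOneVals F x ∧ (algebraMap C F π)⁻¹ ∈ V} m u
    (fun V hV => hdiv V hV.1 hV.2)
    ((finite_not_isU x u hu).subset fun V hV => ⟨hV.1.1, hV.2⟩)
    (fun V hV hVu => by
      obtain ⟨P, hP, hht, hPx, hPV⟩ := hV.1
      haveI := hP
      have hπP : π ∉ P := (hPV.inv_mem_iff hπ0).mp hV.2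
      obtain ⟨f, hfP, hgenf⟩ := hgen P hP hht hPx hπP (fun V' hV' => by
        rw [← hPV.unique hV']
        exact hVu)
      obtain ⟨hf0, hunif, hother⟩ :=
        local_eq_of_sat_gen x π hπ0 P hht hPx hπP f hfP hgenf V hPV
      exact ⟨algebraMap C F f, hf0, hunif, fun V' hV' hne => hother V' hV'.1 hV'.2 hne⟩)
  exact ⟨g, hg0, fun V hV hh => hg V ⟨hV, hh⟩⟩

omit [IsNoetherianRing C] [IsIntegrallyClosed C] in
/-- A horizontal height-one local ring through `x` pulls back under `S` to a horizontal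
height-one local ring through `S⁻¹ x`. -/
theorem comap_mem_heightOneVals_frob (x : Ideal C) (π : C) (hπ0 : π ≠ 0)
    (S : F ≃+* F) (σ : C ≃+* C) (hσS : ∀ c, S (algebraMap C F c) = algebraMap C F (σ c))
    (hσπ : ∃ ε : C, π = σ π * ε)
    (V : ValuationSubring F) (hV : V ∈ heightOneVals F x) (hh : (algebraMap C F π)⁻¹ ∈ V) :
    V.comap (S : F →+* F) ∈ heightOneVals F (x.comap (σ : C →+* C)) ∧
      (algebraMap C F π)⁻¹ ∈ V.comap (S : F →+* F) := by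
  obtain ⟨P, hP, hht, hPx, hPV⟩ := hV
  haveI := hP
  have hπP : π ∉ P := (hPV.inv_mem_iff hπ0).mp hh
  have hP' : (P.comap σ).IsPrime := Ideal.comap_isPrime _ _
  have hloc' := hPV.comap S σ hσS
  have hπP' : π ∉ P.comap σ := by
    intro hmem
    rw [Ideal.mem_comap] at hmem
    obtain ⟨ε, hε⟩ := hσπ
    apply hπP
    rw [hε]
    exact P.mul_mem_right _ hmem
  refine ⟨⟨P.comap σ, hP', ?_, ?_, hloc'⟩, (hloc'.inv_mem_iff hπ0).mpr hπP'⟩
  · rw [RingEquiv.height_comap]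
    exact hht
  · intro c hc
    exact hPx hc

/-- **(STEP1-FROB), abstract core.** -/
theorem step1_frob_at (x : Ideal C) [hx : x.IsPrime] (π : C) (hπ0 : π ≠ 0)
    (S : F ≃+* F) (σ : C ≃+* C) (hσS : ∀ c, S (algebraMap C F c) = algebraMap C F (σ c))
    (hσπ : ∃ ε : C, π = σ π * ε)
    (m : ℕ) (u : F) (hu : u ≠ 0)
    (hdiv : ∀ V ∈ heightOneVals F x, (algebraMap C F π)⁻¹ ∈ V →
      ∃ t : F, t ≠ 0 ∧ IsU V (u / t ^ m))
    (hdiv' : ∀ V ∈ heightOneVals F (x.comap (σ : C →+* C)), (algebraMap C F π)⁻¹ ∈ V →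
      ∃ t : F, t ≠ 0 ∧ IsU V (u / t ^ m))
    (hgen : ∀ P : Ideal C, P.IsPrime → P.height = 1 → P ≤ x → π ∉ P →
      (∀ V : ValuationSubring F, IsLocAt P V → ¬ IsU V u) →
      ∃ f ∈ P, ∀ y ∈ P, ∃ s : C, s ∉ x ∧ ∃ (n : ℕ) (c : C), s * π ^ n * y = f * c)
    (hgen' : ∀ P : Ideal C, P.IsPrime → P.height = 1 → P ≤ x.comap (σ : C →+* C) → π ∉ P →
      (∀ V : ValuationSubring F, IsLocAt P V → ¬ IsU V u) →
      ∃ f ∈ P, ∀ y ∈ P, ∃ s : C, s ∉ x.comap (σ : C →+* C) ∧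
        ∃ (n : ℕ) (c : C), s * π ^ n * y = f * c)
    (hcase : (x.comap (σ : C →+* C) = x ∧
        ∀ V ∈ heightOneVals F x, (algebraMap C F π)⁻¹ ∉ V → ∀ z : F, S z ∈ V ↔ z ∈ V) ∨
      ∃ V₁ : ValuationSubring F, (∀ z : F, S z ∈ V₁ ↔ z ∈ V₁) ∧
        (∀ y : F, y ≠ 0 → ∃ n : ℤ, IsU V₁ (y / algebraMap C F π ^ n)) ∧
        ∀ V ∈ heightOneVals F x, (algebraMap C F π)⁻¹ ∉ V → V = V₁) :
    ∃ g : F, g ≠ 0 ∧ ∃ a b : C, a ∉ x ∧ b ∉ x ∧
      S u / u * algebraMap C F b = algebraMap C F a * g ^ m := by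
  have hπF : algebraMap C F π ≠ 0 := fun h =>
    hπ0 (IsFractionRing.injective C F (by rw [h, map_zero]))
  have hSu0 : S u ≠ 0 := (map_ne_zero S).mpr hu
  -- the roots at `x` and at `S⁻¹ x`, compatible at the vertical local rings through `x`
  obtain ⟨g, g', hg0, hg'0, hg, hg', hvert⟩ : ∃ g g' : F, g ≠ 0 ∧ g' ≠ 0 ∧
      (∀ V ∈ heightOneVals F x, (algebraMap C F π)⁻¹ ∈ V → IsU V (u / g ^ m)) ∧
      (∀ V ∈ heightOneVals F (x.comap (σ : C →+* C)), (algebraMap C F π)⁻¹ ∈ V →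
        IsU V (u / g' ^ m)) ∧
      (∀ V ∈ heightOneVals F x, (algebraMap C F π)⁻¹ ∉ V →
        IsU V (S (u / g' ^ m) / (u / g ^ m))) := by
    rcases hcase with ⟨hxx, hSv⟩ | ⟨V₁, hSV₁, hsc, hV₁⟩
    · obtain ⟨g, hg0, hg⟩ := exists_root_at x π hπ0 m u hu hdiv hgen
      refine ⟨g, g, hg0, hg0, hg, ?_, ?_⟩
      · rw [hxx]
        exact hg
      · intro V hV hv
        obtain ⟨P, hP, hht, hPx, hPV⟩ := hV
        haveI := hP
        obtain ⟨V', hV', hdvr⟩ := exists_isLocAt (F := F) P hht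
        have hVV' : V = V' := hPV.unique hV'
        subst hVV'
        exact isU_map_div_self V S (fun z => (hSv V ⟨P, hP, hht, hPx, hPV⟩ hv z).symm) _
          (div_ne_zero hu (pow_ne_zero m hg0))
    · obtain ⟨g₀, hg₀0, hg₀⟩ := exists_root_at x π hπ0 m u hu hdiv hgen
      obtain ⟨g₀', hg₀'0, hg₀'⟩ := exists_root_at (x.comap (σ : C →+* C)) π hπ0 m u hu hdiv' hgen'
      obtain ⟨n, hn⟩ := hsc g₀ hg₀0
      obtain ⟨n', hn'⟩ := hsc g₀' hg₀'0
      have key : ∀ (y : Ideal C) (g₁ : F) (j : ℤ),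
          (∀ V ∈ heightOneVals F y, (algebraMap C F π)⁻¹ ∈ V → IsU V (u / g₁ ^ m)) →
          ∀ V ∈ heightOneVals F y, (algebraMap C F π)⁻¹ ∈ V →
            IsU V (u / (g₁ / algebraMap C F π ^ j) ^ m) := by
        intro y g₁ j h V hV hh
        obtain ⟨P, hP, hht, hPx, hPV⟩ := hV
        haveI := hP
        have hπU : IsU V (algebraMap C F π) := ⟨hPV.algebraMap_mem π, hh⟩
        have e : u / (g₁ / algebraMap C F π ^ j) ^ m =
            u / g₁ ^ m * (algebraMap C F π ^ j) ^ m := by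
          rw [div_pow, div_div_eq_mul_div, mul_div_right_comm]
        rw [e]
        exact (h V ⟨P, hP, hht, hPx, hPV⟩ hh).mul ((hπU.zpow j).pow m)
      refine ⟨g₀ / algebraMap C F π ^ n, g₀' / algebraMap C F π ^ n',
        div_ne_zero hg₀0 (zpow_ne_zero _ hπF), div_ne_zero hg₀'0 (zpow_ne_zero _ hπF),
        key x g₀ n hg₀, key _ g₀' n' hg₀', ?_⟩
      intro V hV hv
      have hVV₁ : V = V₁ := hV₁ V hV hv
      subst hVV₁
      obtain ⟨P, hP, hht, hPx, hPV⟩ := hV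
      haveI := hP
      obtain ⟨V', hV', hdvr⟩ := exists_isLocAt (F := F) P hht
      have hVV' : V = V' := hPV.unique hV'
      subst hVV'
      have h1 : IsU V (S u / u) := isU_map_div_self V S (fun z => (hSV₁ z).symm) u hu
      have h4 : IsU V (S (g₀' / algebraMap C F π ^ n')) :=
        ⟨(hSV₁ _).mpr hn'.1, by rw [← map_inv₀]; exact (hSV₁ _).mpr hn'.2⟩
      have hgn0 : g₀ / algebraMap C F π ^ n ≠ 0 := div_ne_zero hg₀0 (zpow_ne_zero _ hπF)
      have hSg0 : S (g₀' / algebraMap C F π ^ n') ≠ 0 :=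
        (map_ne_zero S).mpr (div_ne_zero hg₀'0 (zpow_ne_zero _ hπF))
      have e : S (u / (g₀' / algebraMap C F π ^ n') ^ m) / (u / (g₀ / algebraMap C F π ^ n) ^ m)
          = S u / u * ((g₀ / algebraMap C F π ^ n) ^ m / S (g₀' / algebraMap C F π ^ n') ^ m) := by
        rw [map_div₀, map_pow]
        field_simp
      rw [e]
      exact h1.mul ((hn.pow m).div (h4.pow m))
  -- `η = S (u / g' ^ m) / (u / g ^ m)` is a unit at every height-one local ring through `x`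
  have hz0 : u / g ^ m ≠ 0 := div_ne_zero hu (pow_ne_zero m hg0)
  have hSz0 : S (u / g' ^ m) ≠ 0 := (map_ne_zero S).mpr (div_ne_zero hu (pow_ne_zero m hg'0))
  have hη : ∀ V ∈ heightOneVals F x, IsU V (S (u / g' ^ m) / (u / g ^ m)) := by
    intro V hV
    by_cases hh : (algebraMap C F π)⁻¹ ∈ V
    · obtain ⟨h1, h2⟩ := comap_mem_heightOneVals_frob x π hπ0 S σ hσS hσπ V hV hh
      have h3 := hg' _ h1 h2
      have h4 : IsU V (S (u / g' ^ m)) :=
        ⟨ValuationSubring.mem_comap.mp h3.1, by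
          rw [← map_inv₀]
          exact ValuationSubring.mem_comap.mp h3.2⟩
      exact h4.div (hg V hV hh)
    · exact hvert V hV hh
  obtain ⟨a, b, hb, hab⟩ := krull_at x _ (fun V hV => (hη V hV).1)
  obtain ⟨a', b', hb', hab'⟩ := krull_at x _ (fun V hV => (hη V hV).2)
  have ha : a ∉ x := by
    intro ha
    have hprod : a * a' = b * b' := by
      apply IsFractionRing.injective C F
      rw [map_mul, map_mul, ← hab, ← hab']
      field_simp
    have : b * b' ∈ x := by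
      rw [← hprod]
      exact x.mul_mem_right _ ha
    rcases hx.mem_or_mem this with h | h
    · exact hb h
    · exact hb' h
  refine ⟨S g' / g, div_ne_zero ((map_ne_zero S).mpr hg'0) hg0, a, b, ha, hb, ?_⟩
  have hSg'm : S g' ^ m ≠ 0 := pow_ne_zero m ((map_ne_zero S).mpr hg'0)
  have hgm : g ^ m ≠ 0 := pow_ne_zero m hg0
  rw [← hab, map_div₀, map_pow, div_pow]
  field_simp

end Abstract

/-! ### Charts -/

section Chart

variable {A₀ : Type*} [CommRing A₀] {F : Type*} [Field F] [Algebra A₀ F]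

/-- The point `S⁻¹ x = {c | S c ∈ x}` of the chart `C`. -/
def frobComap (C : Subalgebra A₀ F) (S : F ≃+* F) (hSC : ∀ c : F, S c ∈ C ↔ c ∈ C)
    (x : Ideal ↥C) : Ideal ↥C :=
  x.comap (H54.restrictEquiv C S hSC : ↥C →+* ↥C)

theorem mem_frobComap (C : Subalgebra A₀ F) (S : F ≃+* F) (hSC : ∀ c : F, S c ∈ C ↔ c ∈ C)
    (x : Ideal ↥C) (c : ↥C) :
    c ∈ frobComap C S hSC x ↔ (⟨S c, (hSC c).2 c.2⟩ : ↥C) ∈ x := Iff.rfl

theorem frobComap_isPrime (C : Subalgebra A₀ F) (S : F ≃+* F) (hSC : ∀ c : F, S c ∈ C ↔ c ∈ C)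
    (x : Ideal ↥C) (hx : x.IsPrime) : (frobComap C S hSC x).IsPrime :=
  Ideal.comap_isPrime _ _

theorem frobComap_isMaximal (C : Subalgebra A₀ F) (S : F ≃+* F) (hSC : ∀ c : F, S c ∈ C ↔ c ∈ C)
    (x : Ideal ↥C) (hx : x.IsMaximal) : (frobComap C S hSC x).IsMaximal :=
  Ideal.comap_isMaximal_of_surjective _ (H54.restrictEquiv C S hSC).surjective

/-- The uniformiser of the base lies in `S⁻¹ x`. -/
theorem unif_mem_frobComap (C : Subalgebra A₀ F) (S : F ≃+* F) (hSC : ∀ c : F, S c ∈ C ↔ c ∈ C)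
    (x : Ideal ↥C) (ϖ : A₀)
    (hSϖ : ∃ e : A₀, S (algebraMap A₀ F ϖ) = algebraMap A₀ F (e * ϖ))
    (hϖx : algebraMap A₀ ↥C ϖ ∈ x) : algebraMap A₀ ↥C ϖ ∈ frobComap C S hSC x := by
  obtain ⟨e, he⟩ := hSϖ
  rw [mem_frobComap]
  have h1 : (⟨S ((algebraMap A₀ ↥C ϖ : ↥C) : F), (hSC _).2 (algebraMap A₀ ↥C ϖ).2⟩ : ↥C) =
      algebraMap A₀ ↥C e * algebraMap A₀ ↥C ϖ := by
    apply Subtype.ext
    show S (algebraMap A₀ F ϖ) = algebraMap A₀ F e * algebraMap A₀ F ϖ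
    rw [he, map_mul]
  rw [h1]
  exact x.mul_mem_left _ hϖx

/-- **(STEP1-FROB) for a chart.** -/
theorem step1_frob_chart (C : Subalgebra A₀ F) [IsFractionRing ↥C F] [IsNoetherianRing ↥C]
    [IsIntegrallyClosed ↥C] (x : Ideal ↥C) (hx : x.IsPrime) (π : ↥C) (hπ0 : π ≠ 0)
    (S : F ≃+* F) (hSC : ∀ c : F, S c ∈ C ↔ c ∈ C)
    (hSπ : ∃ ε ∈ C, (π : F) = S (π : F) * ε)
    (m : ℕ) (u : F) (hu : u ≠ 0)
    (hdiv : ∀ V : ValuationSubring F, (π : F)⁻¹ ∈ V → (∀ r : ↥C, (r : F) ∈ V) →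
      IsDiscreteValuationRing V → ∃ t : F, t ≠ 0 ∧ u / t ^ m ∈ V ∧ (u / t ^ m)⁻¹ ∈ V)
    (hgen : ∀ P : Ideal ↥C, P.IsPrime → P.height = 1 → P ≤ x → π ∉ P →
      (∀ V : ValuationSubring F, IsLocAt P V → ¬ IsU V u) →
      ∃ f ∈ P, ∀ y ∈ P, ∃ s : ↥C, s ∉ x ∧ ∃ (n : ℕ) (c : ↥C), s * π ^ n * y = f * c)
    (hgen' : ∀ P : Ideal ↥C, P.IsPrime → P.height = 1 → P ≤ frobComap C S hSC x → π ∉ P →
      (∀ V : ValuationSubring F, IsLocAt P V → ¬ IsU V u) →
      ∃ f ∈ P, ∀ y ∈ P, ∃ s : ↥C, s ∉ frobComap C S hSC x ∧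
        ∃ (n : ℕ) (c : ↥C), s * π ^ n * y = f * c)
    (hcase : (frobComap C S hSC x = x ∧
        ∀ V ∈ heightOneVals F x, (π : F)⁻¹ ∉ V → ∀ z : F, S z ∈ V ↔ z ∈ V) ∨
      ∃ V₁ : ValuationSubring F, (∀ z : F, S z ∈ V₁ ↔ z ∈ V₁) ∧
        (∀ y : F, y ≠ 0 → ∃ n : ℤ, IsU V₁ (y / (π : F) ^ n)) ∧
        ∀ V ∈ heightOneVals F x, (π : F)⁻¹ ∉ V → V = V₁) :
    ∃ g : F, g ≠ 0 ∧ ∃ a b : ↥C, a ∉ x ∧ b ∉ x ∧ S u / u * (b : F) = (a : F) * g ^ m := by
  haveI := hx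
  have hσS : ∀ c : ↥C, S (algebraMap ↥C F c) = algebraMap ↥C F (H54.restrictEquiv C S hSC c) :=
    fun c => rfl
  have hσπ : ∃ ε : ↥C, π = H54.restrictEquiv C S hSC π * ε := by
    obtain ⟨ε, hε, h⟩ := hSπ
    exact ⟨⟨ε, hε⟩, Subtype.ext h⟩
  exact step1_frob_at x π hπ0 S (H54.restrictEquiv C S hSC) hσS hσπ m u hu
    (hdiv_of_forall_dvr C x π m u hdiv)
    (hdiv_of_forall_dvr C (frobComap C S hSC x) π m u hdiv) hgen hgen' hcase

/-- **Vertical local rings of a two-component model.**  `V₁`, `V₂` valuation rings with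
uniformiser `ϖ`, `C ⊆ V₁ ∩ V₂` saturated.  Then every height-one local ring of `C` in which
`ϖ` is not invertible is `V₁` or `V₂`. -/
theorem vertical_cases (ϖ : A₀) (C : Subalgebra A₀ F) [IsFractionRing ↥C F]
    [IsNoetherianRing ↥C] [IsIntegrallyClosed ↥C]
    (V₁ V₂ : ValuationSubring F)
    (hu₁ : ∀ y : F, y ∈ V₁.nonunits ↔ ∃ d ∈ V₁, y = ϖ • d)
    (hu₂ : ∀ y : F, y ∈ V₂.nonunits ↔ ∃ d ∈ V₂, y = ϖ • d)
    (hCV₁ : ∀ c ∈ C, c ∈ V₁) (hCV₂ : ∀ c ∈ C, c ∈ V₂)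
    (hsat : ∀ y : F, y ∈ V₁ → y ∈ V₂ → ϖ • y ∈ C → y ∈ C)
    (x : Ideal ↥C) (V : ValuationSubring F) (hV : V ∈ heightOneVals F x)
    (hv : ((algebraMap A₀ ↥C ϖ : ↥C) : F)⁻¹ ∉ V) : V = V₁ ∨ V = V₂ := by
  obtain ⟨P, hP, hht, hPx, hPV⟩ := hV
  haveI := hP
  have hcoe : ((algebraMap A₀ ↥C ϖ : ↥C) : F) = algebraMap A₀ F ϖ := rfl
  have hπ0 : algebraMap A₀ ↥C ϖ ≠ 0 := by
    intro h0
    apply hv
    rw [h0]
    simp
  have hπF : algebraMap A₀ F ϖ ≠ 0 := by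
    intro h0
    apply hπ0
    apply Subtype.ext
    rw [hcoe, h0]
    rfl
  have hπP : algebraMap A₀ ↥C ϖ ∈ P := by
    by_contra hπP
    exact hv ((hPV.inv_mem_iff hπ0).mpr hπP)
  have hπV : algebraMap A₀ F ϖ ∈ V.nonunits := hPV.mem_nonunits_of_mem hπP
  have hπ₁ : algebraMap A₀ F ϖ ∈ V₁.nonunits :=
    (hu₁ _).2 ⟨1, V₁.one_mem, by rw [Algebra.smul_def, mul_one]⟩
  have hπ₂ : algebraMap A₀ F ϖ ∈ V₂.nonunits :=
    (hu₂ _).2 ⟨1, V₂.one_mem, by rw [Algebra.smul_def, mul_one]⟩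
  -- `P` contains `C ∩ m(V₁)` or `C ∩ m(V₂)`
  have key : (∀ c : ↥C, (c : F) ∈ V₁.nonunits → c ∈ P) ∨
      (∀ c : ↥C, (c : F) ∈ V₂.nonunits → c ∈ P) := by
    by_contra hcon
    push Not at hcon
    obtain ⟨⟨c₁, hc₁, hc₁P⟩, ⟨c₂, hc₂, hc₂P⟩⟩ := hcon
    obtain ⟨d₁, hd₁, e₁⟩ := (hu₁ _).1 hc₁
    obtain ⟨d₂, hd₂, e₂⟩ := (hu₂ _).1 hc₂
    have hy₁ : d₁ * (c₂ : F) ∈ V₁ := V₁.mul_mem _ _ hd₁ (hCV₁ _ c₂.2)
    have hy₂ : d₁ * (c₂ : F) ∈ V₂ := by
      have e : d₁ * (c₂ : F) = (c₁ : F) * d₂ := by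
        rw [e₁, e₂, Algebra.smul_def, Algebra.smul_def]
        ring
      rw [e]
      exact V₂.mul_mem _ _ (hCV₂ _ c₁.2) hd₂
    have hprod : ϖ • (d₁ * (c₂ : F)) = (c₁ : F) * (c₂ : F) := by
      rw [e₁, Algebra.smul_def, Algebra.smul_def]
      ring
    have hyC : d₁ * (c₂ : F) ∈ C := hsat _ hy₁ hy₂ (by
      rw [hprod]
      exact C.mul_mem c₁.2 c₂.2)
    have h1 : c₁ * c₂ = algebraMap A₀ ↥C ϖ * ⟨d₁ * (c₂ : F), hyC⟩ := by
      apply Subtype.ext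
      show (c₁ : F) * (c₂ : F) = algebraMap A₀ F ϖ * (d₁ * (c₂ : F))
      rw [← hprod, Algebra.smul_def]
    have h2 : c₁ * c₂ ∈ P := by
      rw [h1]
      exact P.mul_mem_right _ hπP
    rcases hP.mem_or_mem h2 with h | h
    · exact hc₁P h
    · exact hc₂P h
  obtain ⟨V', hV', hdvr⟩ := exists_isLocAt (F := F) P hht
  have hVV' : V = V' := hPV.unique hV'
  subst hVV'
  -- `C_P ⊆ V_k` when `P ⊇ C ∩ m(V_k)`
  have hle : ∀ (W : ValuationSubring F), (∀ c ∈ C, c ∈ W) →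
      (∀ c : ↥C, (c : F) ∈ W.nonunits → c ∈ P) → ∀ y ∈ V, y ∈ W := by
    intro W hCW hW y hy
    obtain ⟨a, s, hs, hys⟩ := (hPV y).mp hy
    have hs0 : (s : F) ≠ 0 := by
      intro h0
      apply hs
      have : s = 0 := Subtype.ext h0
      rw [this]
      exact P.zero_mem
    have hsW : (s : F)⁻¹ ∈ W := by
      by_contra hsinv
      exact hs (hW s ((ValuationSubring.mem_nonunits_iff_or (A := W)).2 (Or.inr hsinv)))
    have e : y = (a : F) * (s : F)⁻¹ := by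
      have hys' : y * (s : F) = (a : F) := hys
      rw [← hys', mul_assoc, mul_inv_cancel₀ hs0, mul_one]
    rw [e]
    exact W.mul_mem _ _ (hCW _ a.2) hsW
  rcases key with h | h
  · left
    exact eq_of_le_of_isDVR V V₁ (hle V₁ hCV₁ h) _ hπF hπV hπ₁
  · right
    exact eq_of_le_of_isDVR V V₂ (hle V₂ hCV₂ h) _ hπF hπV hπ₂

/-- **(STEP1-FROB), assembly** in the vocabulary of `H30.VData.Good` and
`H30.cartier_of_pointOK`: the Cartier form of `S u / u` at a closed point `x` of the chart `C`,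
from the local certificates (`H30.PointOK`, unfolded) of `u` at `x` and at `S⁻¹ x`, when `x`
lies on one component only or is `S`-stable. -/
theorem cartier_frob_of_pointOK (ϖ : A₀) (hϖ0 : algebraMap A₀ F ϖ ≠ 0) (C : Subalgebra A₀ F)
    [IsIntegrallyClosed ↥C] [IsNoetherianRing ↥C] [IsFractionRing ↥C F]
    (V₁ V₂ : ValuationSubring F)
    (hu₁ : ∀ y : F, y ∈ V₁.nonunits ↔ ∃ d ∈ V₁, y = ϖ • d)
    (hu₂ : ∀ y : F, y ∈ V₂.nonunits ↔ ∃ d ∈ V₂, y = ϖ • d)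
    (hCV₁ : ∀ c ∈ C, c ∈ V₁) (hCV₂ : ∀ c ∈ C, c ∈ V₂)
    (hsat : ∀ y : F, y ∈ V₁ → y ∈ V₂ → ϖ • y ∈ C → y ∈ C)
    (hsc₁ : ∀ y : F, y ≠ 0 → ∃ n : ℤ, IsU V₁ (y / algebraMap A₀ F ϖ ^ n))
    (hsc₂ : ∀ y : F, y ≠ 0 → ∃ n : ℤ, IsU V₂ (y / algebraMap A₀ F ϖ ^ n))
    (S : F ≃+* F) (hSC : ∀ c : F, S c ∈ C ↔ c ∈ C)
    (hSV₁ : ∀ y : F, S y ∈ V₁ ↔ y ∈ V₁) (hSV₂ : ∀ y : F, S y ∈ V₂ ↔ y ∈ V₂)
    (hSϖ : ∃ e : A₀ˣ, S (algebraMap A₀ F ϖ) = algebraMap A₀ F (e * ϖ))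
    (m : ℕ) (u : F) (hu : u ≠ 0)
    (hdiv : ∀ V : ValuationSubring F, (algebraMap A₀ F ϖ)⁻¹ ∈ V →
      (∀ a : A₀, algebraMap A₀ F a ∈ V) → IsDiscreteValuationRing V →
      ∃ t : F, t ≠ 0 ∧ u / t ^ m ∈ V ∧ (u / t ^ m)⁻¹ ∈ V)
    (x : Ideal ↥C) (hx : x.IsMaximal)
    (hok : (haveI := hx.isPrime; UniqueFactorizationMonoid (Localization.AtPrime x)) ∨
      ∀ P : Ideal ↥C, P.IsPrime → P.height = 1 → P ≤ x → algebraMap A₀ ↥C ϖ ∉ P →
        (∀ V : ValuationSubring F, IsLocAt P V → ¬ IsU V u) →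
        ∃ f ∈ P, ∀ y ∈ P, ∃ s : ↥C, s ∉ x ∧
          ∃ (n : ℕ) (c : ↥C), s * algebraMap A₀ ↥C ϖ ^ n * y = f * c)
    (hok' : (haveI := frobComap_isPrime C S hSC x hx.isPrime;
        UniqueFactorizationMonoid (Localization.AtPrime (frobComap C S hSC x))) ∨
      ∀ P : Ideal ↥C, P.IsPrime → P.height = 1 → P ≤ frobComap C S hSC x →
        algebraMap A₀ ↥C ϖ ∉ P →
        (∀ V : ValuationSubring F, IsLocAt P V → ¬ IsU V u) →
        ∃ f ∈ P, ∀ y ∈ P, ∃ s : ↥C, s ∉ frobComap C S hSC x ∧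
          ∃ (n : ℕ) (c : ↥C), s * algebraMap A₀ ↥C ϖ ^ n * y = f * c)
    (hpt : (∃ t : ↥C, t ∉ x ∧ (t : F) ∈ V₂.nonunits) ∨
      (∃ t : ↥C, t ∉ x ∧ (t : F) ∈ V₁.nonunits) ∨
      ∀ c : ↥C, c ∈ frobComap C S hSC x ↔ c ∈ x) :
    ∃ g : F, g ≠ 0 ∧ ∃ a b : ↥C, a ∉ x ∧ b ∉ x ∧ S u / u * (b : F) = (a : F) * g ^ m := by
  haveI hxp : x.IsPrime := hx.isPrime
  haveI hxp' : (frobComap C S hSC x).IsPrime := frobComap_isPrime C S hSC x hx.isPrime
  have hcoe : ((algebraMap A₀ ↥C ϖ : ↥C) : F) = algebraMap A₀ F ϖ := rfl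
  have hπ0 : algebraMap A₀ ↥C ϖ ≠ 0 := by
    intro h0
    apply hϖ0
    rw [← hcoe, h0]
    rfl
  have hSπ : ∃ ε ∈ C, ((algebraMap A₀ ↥C ϖ : ↥C) : F) =
      S ((algebraMap A₀ ↥C ϖ : ↥C) : F) * ε := by
    obtain ⟨e, he⟩ := hSϖ
    refine ⟨algebraMap A₀ F ((e⁻¹ : A₀ˣ) : A₀), C.algebraMap_mem _, ?_⟩
    rw [hcoe, he, ← map_mul]
    congr 1
    rw [mul_comm (e : A₀) ϖ, mul_assoc, Units.mul_inv, mul_one]
  have hdiv' : ∀ V : ValuationSubring F, ((algebraMap A₀ ↥C ϖ : ↥C) : F)⁻¹ ∈ V →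
      (∀ r : ↥C, (r : F) ∈ V) → IsDiscreteValuationRing V →
      ∃ t : F, t ≠ 0 ∧ u / t ^ m ∈ V ∧ (u / t ^ m)⁻¹ ∈ V :=
    fun V hV hC hdvr => hdiv V (by rw [← hcoe]; exact hV)
      (fun a => hC (algebraMap A₀ ↥C a)) hdvr
  -- saturated generators at `x` and at `S⁻¹ x`
  have hgen : ∀ P : Ideal ↥C, P.IsPrime → P.height = 1 → P ≤ x → algebraMap A₀ ↥C ϖ ∉ P →
      (∀ V : ValuationSubring F, IsLocAt P V → ¬ IsU V u) →
      ∃ f ∈ P, ∀ y ∈ P, ∃ s : ↥C, s ∉ x ∧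
        ∃ (n : ℕ) (c : ↥C), s * algebraMap A₀ ↥C ϖ ^ n * y = f * c := by
    rcases hok with hufd | hgen
    · intro P hP hht hPx _ _
      haveI := hP
      exact sat_gen_of_ufd x (algebraMap A₀ ↥C ϖ) (Localization.AtPrime x) hufd P hht hPx
    · exact hgen
  have hgen' : ∀ P : Ideal ↥C, P.IsPrime → P.height = 1 → P ≤ frobComap C S hSC x →
      algebraMap A₀ ↥C ϖ ∉ P →
      (∀ V : ValuationSubring F, IsLocAt P V → ¬ IsU V u) →
      ∃ f ∈ P, ∀ y ∈ P, ∃ s : ↥C, s ∉ frobComap C S hSC x ∧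
        ∃ (n : ℕ) (c : ↥C), s * algebraMap A₀ ↥C ϖ ^ n * y = f * c := by
    rcases hok' with hufd | hgen
    · intro P hP hht hPx _ _
      haveI := hP
      exact sat_gen_of_ufd (frobComap C S hSC x) (algebraMap A₀ ↥C ϖ)
        (Localization.AtPrime (frobComap C S hSC x)) hufd P hht hPx
    · exact hgen
  have hvc := vertical_cases ϖ C V₁ V₂ hu₁ hu₂ hCV₁ hCV₂ hsat x
  -- a point which does not lie on the component `W` has no vertical local ring equal to `W`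
  have hnot : ∀ (W : ValuationSubring F) (t : ↥C), t ∉ x → (t : F) ∈ W.nonunits →
      ∀ V ∈ heightOneVals F x, V ≠ W := by
    rintro W t htx htW V ⟨P, hP, hht, hPx, hPV⟩ rfl
    haveI := hP
    apply htx
    apply hPx
    by_contra htP
    have h1 : IsU V (algebraMap ↥C F t) := hPV.isU_of_notMem htP
    rw [ValuationSubring.mem_nonunits_iff_or] at htW
    rcases htW with h | h
    · apply htP
      have : t = 0 := Subtype.ext h
      rw [this]
      exact P.zero_mem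
    · exact h h1.2
  have hcase : (frobComap C S hSC x = x ∧
        ∀ V ∈ heightOneVals F x, ((algebraMap A₀ ↥C ϖ : ↥C) : F)⁻¹ ∉ V →
          ∀ z : F, S z ∈ V ↔ z ∈ V) ∨
      ∃ W : ValuationSubring F, (∀ z : F, S z ∈ W ↔ z ∈ W) ∧
        (∀ y : F, y ≠ 0 → ∃ n : ℤ, IsU W (y / ((algebraMap A₀ ↥C ϖ : ↥C) : F) ^ n)) ∧
        ∀ V ∈ heightOneVals F x, ((algebraMap A₀ ↥C ϖ : ↥C) : F)⁻¹ ∉ V → V = W := by
    rcases hpt with ⟨t, htx, ht⟩ | ⟨t, htx, ht⟩ | hstab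
    · right
      refine ⟨V₁, hSV₁, hsc₁, fun V hV hv => ?_⟩
      rcases hvc V hV hv with h | h
      · exact h
      · exact absurd h (hnot V₂ t htx ht V hV)
    · right
      refine ⟨V₂, hSV₂, hsc₂, fun V hV hv => ?_⟩
      rcases hvc V hV hv with h | h
      · exact absurd h (hnot V₁ t htx ht V hV)
      · exact h
    · left
      refine ⟨Ideal.ext hstab, fun V hV hv z => ?_⟩
      rcases hvc V hV hv with rfl | rfl
      · exact hSV₁ z
      · exact hSV₂ z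
  exact step1_frob_chart C x hxp (algebraMap A₀ ↥C ϖ) hπ0 S hSC hSπ m u hu hdiv' hgen hgen' hcase

end Chart

end Fermat.Agent.S35.H7
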