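/-
S35-GEO — helper7.  Root form of (STEP1-FROB) (`S35/H7/Step1Frob.lean`).

The Cartier form of `S u / u` at a closed point `x` of a chart only uses a LOCAL ROOT of `u`
at `x` and at `x' = S⁻¹ x` (`HasRootAt`: a function `g` with `u / g ^ m` a unit at every
horizontal height-one local ring through the point).  A local root is supplied by any of the
three local certificates of Program B' (`H30.Point3`):

* the local ring is factorial (`hasRootAt_of_ufd`),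
* saturated generators of the horizontal primes in the support of `u` (`hasRootAt_of_gen`),
* the local divisor datum `HLoc` (`hasRootAt_of_hLoc`).

`cartier_frob_of_point3` : the assembly of `cartier_frob_of_pointOK` with the three
certificates at `x` and at `S⁻¹ x`.
`cartier_frob_of_hLoc_stable` : (HLOC-FROB), the Cartier form at an `S`-stable point from the
local divisor datum alone.
-/
import Fermat.Agent.S35.H7.Step1Frob

set_option autoImplicit false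
set_option linter.unusedSectionVars false
set_option linter.unusedVariables false
set_option linter.style.haveILetI false

namespace Fermat.Agent.S35.H7

open Fermat.Agent.S34.H7 Fermat.Agent.S34

section Abstract

variable {C : Type*} [CommRing C] [IsDomain C] {F : Type*} [Field F] [Algebra C F]
  [IsFractionRing C F] [IsNoetherianRing C] [IsIntegrallyClosed C]

/-- `u` has a local `m`-th root at the point `x`: a function `g` such that `u / g ^ m` is a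
unit at every horizontal height-one local ring through `x`. -/
def HasRootAt (x : Ideal C) (π : C) (m : ℕ) (u : F) : Prop :=
  ∃ g : F, g ≠ 0 ∧
    ∀ V ∈ heightOneVals F x, (algebraMap C F π)⁻¹ ∈ V → IsU V (u / g ^ m)

/-- A local root from the divisibility of the orders and saturated generators. -/
theorem hasRootAt_of_gen (x : Ideal C) [hx : x.IsPrime] (π : C) (hπ0 : π ≠ 0)
    (m : ℕ) (u : F) (hu : u ≠ 0)
    (hdiv : ∀ V ∈ heightOneVals F x, (algebraMap C F π)⁻¹ ∈ V →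
      ∃ t : F, t ≠ 0 ∧ IsU V (u / t ^ m))
    (hgen : ∀ P : Ideal C, P.IsPrime → P.height = 1 → P ≤ x → π ∉ P →
      (∀ V : ValuationSubring F, IsLocAt P V → ¬ IsU V u) →
      ∃ f ∈ P, ∀ y ∈ P, ∃ s : C, s ∉ x ∧ ∃ (n : ℕ) (c : C), s * π ^ n * y = f * c) :
    HasRootAt x π m u :=
  exists_root_at x π hπ0 m u hu hdiv hgen

omit [IsNoetherianRing C] [IsIntegrallyClosed C] in
/-- A local root from the local divisor datum: `u * b = a * f ^ m` with `a, b ∉ P` at every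
horizontal prime `P` through `x`. -/
theorem hasRootAt_of_datum (x : Ideal C) (π : C) (hπ0 : π ≠ 0) (m : ℕ) (u : F)
    (hloc : ∃ f : F, f ≠ 0 ∧ ∀ P : Ideal C, P.IsPrime → P ≤ x → π ∉ P →
      ∃ a b : C, a ∉ P ∧ b ∉ P ∧ u * algebraMap C F b = algebraMap C F a * f ^ m) :
    HasRootAt x π m u := by
  obtain ⟨f, hf0, hf⟩ := hloc
  refine ⟨f, hf0, ?_⟩
  rintro V ⟨P, hP, hht, hPx, hPV⟩ hh
  haveI := hP
  have hπP : π ∉ P := (hPV.inv_mem_iff hπ0).mp hh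
  obtain ⟨a, b, ha, hb, hab⟩ := hf P hP hPx hπP
  have hUa : IsU V (algebraMap C F a) := hPV.isU_of_notMem ha
  have hUb : IsU V (algebraMap C F b) := hPV.isU_of_notMem hb
  have hb0 : algebraMap C F b ≠ 0 := by
    intro h0
    apply hb
    have : b = 0 := IsFractionRing.injective C F (by rw [h0, map_zero])
    rw [this]
    exact P.zero_mem
  have e : u / f ^ m = algebraMap C F a / algebraMap C F b := by
    rw [div_eq_div_iff (pow_ne_zero m hf0) hb0]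
    exact hab
  rw [e]
  exact hUa.div hUb

/-- **(STEP1-FROB), abstract core, root form.** -/
theorem step1_frob_at_root (x : Ideal C) [hx : x.IsPrime] (π : C) (hπ0 : π ≠ 0)
    (S : F ≃+* F) (σ : C ≃+* C) (hσS : ∀ c, S (algebraMap C F c) = algebraMap C F (σ c))
    (hσπ : ∃ ε : C, π = σ π * ε)
    (m : ℕ) (u : F) (hu : u ≠ 0)
    (hroot : HasRootAt x π m u)
    (hroot' : HasRootAt (x.comap (σ : C →+* C)) π m u)
    (hcase : (x.comap (σ : C →+* C) = x ∧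
        ∀ V ∈ heightOneVals F x, (algebraMap C F π)⁻¹ ∉ V → ∀ z : F, S z ∈ V ↔ z ∈ V) ∨
      ∃ V₁ : ValuationSubring F, (∀ z : F, S z ∈ V₁ ↔ z ∈ V₁) ∧
        (∀ y : F, y ≠ 0 → ∃ n : ℤ, IsU V₁ (y / algebraMap C F π ^ n)) ∧
        ∀ V ∈ heightOneVals F x, (algebraMap C F π)⁻¹ ∉ V → V = V₁) :
    ∃ g : F, g ≠ 0 ∧ ∃ a b : C, a ∉ x ∧ b ∉ x ∧
      S u / u * algebraMap C F b = algebraMap C F a * g ^ m := by
  have hπF : algebraMap C F π ≠ 0 := fun h =>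
    hπ0 (IsFractionRing.injective C F (by rw [h, map_zero]))
  have hSu0 : S u ≠ 0 := (map_ne_zero S).mpr hu
  -- the roots at `x` and at `S⁻¹ x`, compatible at the vertical local rings through `x`
  obtain ⟨g, g', hg0, hg'0, hg, hg', hvert⟩ : ∃ g g' : F, g ≠ 0 ∧ g' ≠ 0 ∧
      (∀ V ∈ heightOneVals F x, (algebraMap C F π)⁻¹ ∈ V → IsU V (u / g ^ m)) ∧
      (∀ V ∈ heightOneVals F (x.comap (σ : C →+* C)), (algebraMap C F π)⁻¹ ∈ V →
        IsU V (u / g' ^ m)) ∧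
      (∀ V ∈ heightOneVals F x, (algebraMap C F π)⁻¹ ∉ V →
        IsU V (S (u / g' ^ m) / (u / g ^ m))) := by
    rcases hcase with ⟨hxx, hSv⟩ | ⟨V₁, hSV₁, hsc, hV₁⟩
    · obtain ⟨g, hg0, hg⟩ := hroot
      refine ⟨g, g, hg0, hg0, hg, ?_, ?_⟩
      · rw [hxx]
        exact hg
      · intro V hV hv
        obtain ⟨P, hP, hht, hPx, hPV⟩ := hV
        haveI := hP
        obtain ⟨V', hV', hdvr⟩ := exists_isLocAt (F := F) P hht
        have hVV' : V = V' := hPV.unique hV'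
        subst hVV'
        exact isU_map_div_self V S (fun z => (hSv V ⟨P, hP, hht, hPx, hPV⟩ hv z).symm) _
          (div_ne_zero hu (pow_ne_zero m hg0))
    · obtain ⟨g₀, hg₀0, hg₀⟩ := hroot
      obtain ⟨g₀', hg₀'0, hg₀'⟩ := hroot'
      obtain ⟨n, hn⟩ := hsc g₀ hg₀0
      obtain ⟨n', hn'⟩ := hsc g₀' hg₀'0
      have key : ∀ (y : Ideal C) (g₁ : F) (j : ℤ),
          (∀ V ∈ heightOneVals F y, (algebraMap C F π)⁻¹ ∈ V → IsU V (u / g₁ ^ m)) →
          ∀ V ∈ heightOneVals F y, (algebraMap C F π)⁻¹ ∈ V →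
            IsU V (u / (g₁ / algebraMap C F π ^ j) ^ m) := by
        intro y g₁ j h V hV hh
        obtain ⟨P, hP, hht, hPx, hPV⟩ := hV
        haveI := hP
        have hπU : IsU V (algebraMap C F π) := ⟨hPV.algebraMap_mem π, hh⟩
        have e : u / (g₁ / algebraMap C F π ^ j) ^ m =
            u / g₁ ^ m * (algebraMap C F π ^ j) ^ m := by
          rw [div_pow, div_div_eq_mul_div, mul_div_right_comm]
        rw [e]
        exact (h V ⟨P, hP, hht, hPx, hPV⟩ hh).mul ((hπU.zpow j).pow m)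
      refine ⟨g₀ / algebraMap C F π ^ n, g₀' / algebraMap C F π ^ n',
        div_ne_zero hg₀0 (zpow_ne_zero _ hπF), div_ne_zero hg₀'0 (zpow_ne_zero _ hπF),
        key x g₀ n hg₀, key _ g₀' n' hg₀', ?_⟩
      intro V hV hv
      have hVV₁ : V = V₁ := hV₁ V hV hv
      subst hVV₁
      obtain ⟨P, hP, hht, hPx, hPV⟩ := hV
      haveI := hP
      obtain ⟨V', hV', hdvr⟩ := exists_isLocAt (F := F) P hht
      have hVV' : V = V' := hPV.unique hV'
      subst hVV'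
      have h1 : IsU V (S u / u) := isU_map_div_self V S (fun z => (hSV₁ z).symm) u hu
      have h4 : IsU V (S (g₀' / algebraMap C F π ^ n')) :=
        ⟨(hSV₁ _).mpr hn'.1, by rw [← map_inv₀]; exact (hSV₁ _).mpr hn'.2⟩
      have hgn0 : g₀ / algebraMap C F π ^ n ≠ 0 := div_ne_zero hg₀0 (zpow_ne_zero _ hπF)
      have hSg0 : S (g₀' / algebraMap C F π ^ n') ≠ 0 :=
        (map_ne_zero S).mpr (div_ne_zero hg₀'0 (zpow_ne_zero _ hπF))
      have e : S (u / (g₀' / algebraMap C F π ^ n') ^ m) / (u / (g₀ / algebraMap C F π ^ n) ^ m)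
          = S u / u * ((g₀ / algebraMap C F π ^ n) ^ m / S (g₀' / algebraMap C F π ^ n') ^ m) := by
        rw [map_div₀, map_pow]
        field_simp
      rw [e]
      exact h1.mul ((hn.pow m).div (h4.pow m))
  -- `η = S (u / g' ^ m) / (u / g ^ m)` is a unit at every height-one local ring through `x`
  have hz0 : u / g ^ m ≠ 0 := div_ne_zero hu (pow_ne_zero m hg0)
  have hSz0 : S (u / g' ^ m) ≠ 0 := (map_ne_zero S).mpr (div_ne_zero hu (pow_ne_zero m hg'0))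
  have hη : ∀ V ∈ heightOneVals F x, IsU V (S (u / g' ^ m) / (u / g ^ m)) := by
    intro V hV
    by_cases hh : (algebraMap C F π)⁻¹ ∈ V
    · obtain ⟨h1, h2⟩ := comap_mem_heightOneVals_frob x π hπ0 S σ hσS hσπ V hV hh
      have h3 := hg' _ h1 h2
      have h4 : IsU V (S (u / g' ^ m)) :=
        ⟨ValuationSubring.mem_comap.mp h3.1, by
          rw [← map_inv₀]
          exact ValuationSubring.mem_comap.mp h3.2⟩
      exact h4.div (hg V hV hh)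
    · exact hvert V hV hh
  obtain ⟨a, b, hb, hab⟩ := krull_at x _ (fun V hV => (hη V hV).1)
  obtain ⟨a', b', hb', hab'⟩ := krull_at x _ (fun V hV => (hη V hV).2)
  have ha : a ∉ x := by
    intro ha
    have hprod : a * a' = b * b' := by
      apply IsFractionRing.injective C F
      rw [map_mul, map_mul, ← hab, ← hab']
      field_simp
    have : b * b' ∈ x := by
      rw [← hprod]
      exact x.mul_mem_right _ ha
    rcases hx.mem_or_mem this with h | h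
    · exact hb h
    · exact hb' h
  refine ⟨S g' / g, div_ne_zero ((map_ne_zero S).mpr hg'0) hg0, a, b, ha, hb, ?_⟩
  have hSg'm : S g' ^ m ≠ 0 := pow_ne_zero m ((map_ne_zero S).mpr hg'0)
  have hgm : g ^ m ≠ 0 := pow_ne_zero m hg0
  rw [← hab, map_div₀, map_pow, div_pow]
  field_simp

end Abstract

/-! ### Charts -/

section Chart

variable {A₀ : Type*} [CommRing A₀] {F : Type*} [Field F] [Algebra A₀ F]

/-- **(STEP1-FROB) for a chart, root form.** -/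
theorem step1_frob_chart_root (C : Subalgebra A₀ F) [IsFractionRing ↥C F]
    [IsNoetherianRing ↥C] [IsIntegrallyClosed ↥C] (x : Ideal ↥C) (hx : x.IsPrime) (π : ↥C)
    (hπ0 : π ≠ 0) (S : F ≃+* F) (hSC : ∀ c : F, S c ∈ C ↔ c ∈ C)
    (hSπ : ∃ ε ∈ C, (π : F) = S (π : F) * ε)
    (m : ℕ) (u : F) (hu : u ≠ 0)
    (hroot : HasRootAt (F := F) x π m u)
    (hroot' : HasRootAt (F := F) (frobComap C S hSC x) π m u)
    (hcase : (frobComap C S hSC x = x ∧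
        ∀ V ∈ heightOneVals F x, (π : F)⁻¹ ∉ V → ∀ z : F, S z ∈ V ↔ z ∈ V) ∨
      ∃ V₁ : ValuationSubring F, (∀ z : F, S z ∈ V₁ ↔ z ∈ V₁) ∧
        (∀ y : F, y ≠ 0 → ∃ n : ℤ, IsU V₁ (y / (π : F) ^ n)) ∧
        ∀ V ∈ heightOneVals F x, (π : F)⁻¹ ∉ V → V = V₁) :
    ∃ g : F, g ≠ 0 ∧ ∃ a b : ↥C, a ∉ x ∧ b ∉ x ∧ S u / u * (b : F) = (a : F) * g ^ m := by
  haveI := hx
  have hσS : ∀ c : ↥C, S (algebraMap ↥C F c) = algebraMap ↥C F (H54.restrictEquiv C S hSC c) :=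
    fun c => rfl
  have hσπ : ∃ ε : ↥C, π = H54.restrictEquiv C S hSC π * ε := by
    obtain ⟨ε, hε, h⟩ := hSπ
    exact ⟨⟨ε, hε⟩, Subtype.ext h⟩
  exact step1_frob_at_root x π hπ0 S (H54.restrictEquiv C S hSC) hσS hσπ m u hu hroot hroot'
    hcase

/-- The three local certificates give a local root (chart form; the certificates are
`H30.PointUFD`, `H30.HGen`, `H30.HLoc`, unfolded). -/
theorem hasRootAt_of_point3 (ϖ : A₀) (hϖ0 : algebraMap A₀ F ϖ ≠ 0) (C : Subalgebra A₀ F)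
    [IsIntegrallyClosed ↥C] [IsNoetherianRing ↥C] [IsFractionRing ↥C F]
    (m : ℕ) (u : F) (hu : u ≠ 0)
    (hdiv : ∀ V : ValuationSubring F, (algebraMap A₀ F ϖ)⁻¹ ∈ V →
      (∀ a : A₀, algebraMap A₀ F a ∈ V) → IsDiscreteValuationRing V →
      ∃ t : F, t ≠ 0 ∧ u / t ^ m ∈ V ∧ (u / t ^ m)⁻¹ ∈ V)
    (x : Ideal ↥C) (hx : x.IsPrime)
    (hok : (haveI := hx; UniqueFactorizationMonoid (Localization.AtPrime x)) ∨
      (∀ P : Ideal ↥C, P.IsPrime → P.height = 1 → P ≤ x → algebraMap A₀ ↥C ϖ ∉ P →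
        (∀ V : ValuationSubring F, IsLocAt P V → ¬ IsU V u) →
        ∃ f ∈ P, ∀ y ∈ P, ∃ s : ↥C, s ∉ x ∧
          ∃ (n : ℕ) (c : ↥C), s * algebraMap A₀ ↥C ϖ ^ n * y = f * c) ∨
      ∃ f : F, f ≠ 0 ∧ ∀ P : Ideal ↥C, P.IsPrime → P ≤ x → algebraMap A₀ ↥C ϖ ∉ P →
        ∃ a b : ↥C, a ∉ P ∧ b ∉ P ∧ u * (b : F) = (a : F) * f ^ m) :
    HasRootAt (F := F) x (algebraMap A₀ ↥C ϖ) m u := by
  haveI := hx
  have hcoe : ((algebraMap A₀ ↥C ϖ : ↥C) : F) = algebraMap A₀ F ϖ := rfl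
  have hπ0 : algebraMap A₀ ↥C ϖ ≠ 0 := by
    intro h0
    apply hϖ0
    rw [← hcoe, h0]
    rfl
  have hdiv' : ∀ V : ValuationSubring F, ((algebraMap A₀ ↥C ϖ : ↥C) : F)⁻¹ ∈ V →
      (∀ r : ↥C, (r : F) ∈ V) → IsDiscreteValuationRing V →
      ∃ t : F, t ≠ 0 ∧ u / t ^ m ∈ V ∧ (u / t ^ m)⁻¹ ∈ V :=
    fun V hV hC hdvr => hdiv V (by rw [← hcoe]; exact hV)
      (fun a => hC (algebraMap A₀ ↥C a)) hdvr
  rcases hok with hufd | hgen | hloc
  · refine hasRootAt_of_gen x (algebraMap A₀ ↥C ϖ) hπ0 m u hu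
      (hdiv_of_forall_dvr C x (algebraMap A₀ ↥C ϖ) m u hdiv') ?_
    intro P hP hht hPx _ _
    haveI := hP
    exact sat_gen_of_ufd x (algebraMap A₀ ↥C ϖ) (Localization.AtPrime x) hufd P hht hPx
  · exact hasRootAt_of_gen x (algebraMap A₀ ↥C ϖ) hπ0 m u hu
      (hdiv_of_forall_dvr C x (algebraMap A₀ ↥C ϖ) m u hdiv') hgen
  · exact hasRootAt_of_datum x (algebraMap A₀ ↥C ϖ) hπ0 m u hloc

/-- **(STEP1-FROB), assembly with the three certificates** (`H30.Point3`, unfolded) of `u` at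
`x` and at `S⁻¹ x`: the Cartier form of `S u / u` at a closed point `x` of the chart `C` which
lies on one component only or is `S`-stable. -/
theorem cartier_frob_of_point3 (ϖ : A₀) (hϖ0 : algebraMap A₀ F ϖ ≠ 0) (C : Subalgebra A₀ F)
    [IsIntegrallyClosed ↥C] [IsNoetherianRing ↥C] [IsFractionRing ↥C F]
    (V₁ V₂ : ValuationSubring F)
    (hu₁ : ∀ y : F, y ∈ V₁.nonunits ↔ ∃ d ∈ V₁, y = ϖ • d)
    (hu₂ : ∀ y : F, y ∈ V₂.nonunits ↔ ∃ d ∈ V₂, y = ϖ • d)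
    (hCV₁ : ∀ c ∈ C, c ∈ V₁) (hCV₂ : ∀ c ∈ C, c ∈ V₂)
    (hsat : ∀ y : F, y ∈ V₁ → y ∈ V₂ → ϖ • y ∈ C → y ∈ C)
    (hsc₁ : ∀ y : F, y ≠ 0 → ∃ n : ℤ, IsU V₁ (y / algebraMap A₀ F ϖ ^ n))
    (hsc₂ : ∀ y : F, y ≠ 0 → ∃ n : ℤ, IsU V₂ (y / algebraMap A₀ F ϖ ^ n))
    (S : F ≃+* F) (hSC : ∀ c : F, S c ∈ C ↔ c ∈ C)
    (hSV₁ : ∀ y : F, S y ∈ V₁ ↔ y ∈ V₁) (hSV₂ : ∀ y : F, S y ∈ V₂ ↔ y ∈ V₂)
    (hSϖ : ∃ e : A₀ˣ, S (algebraMap A₀ F ϖ) = algebraMap A₀ F (e * ϖ))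
    (m : ℕ) (u : F) (hu : u ≠ 0)
    (hdiv : ∀ V : ValuationSubring F, (algebraMap A₀ F ϖ)⁻¹ ∈ V →
      (∀ a : A₀, algebraMap A₀ F a ∈ V) → IsDiscreteValuationRing V →
      ∃ t : F, t ≠ 0 ∧ u / t ^ m ∈ V ∧ (u / t ^ m)⁻¹ ∈ V)
    (x : Ideal ↥C) (hx : x.IsMaximal)
    (hok : (haveI := hx.isPrime; UniqueFactorizationMonoid (Localization.AtPrime x)) ∨
      (∀ P : Ideal ↥C, P.IsPrime → P.height = 1 → P ≤ x → algebraMap A₀ ↥C ϖ ∉ P →
        (∀ V : ValuationSubring F, IsLocAt P V → ¬ IsU V u) →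
        ∃ f ∈ P, ∀ y ∈ P, ∃ s : ↥C, s ∉ x ∧
          ∃ (n : ℕ) (c : ↥C), s * algebraMap A₀ ↥C ϖ ^ n * y = f * c) ∨
      ∃ f : F, f ≠ 0 ∧ ∀ P : Ideal ↥C, P.IsPrime → P ≤ x → algebraMap A₀ ↥C ϖ ∉ P →
        ∃ a b : ↥C, a ∉ P ∧ b ∉ P ∧ u * (b : F) = (a : F) * f ^ m)
    (hok' : (haveI := frobComap_isPrime C S hSC x hx.isPrime;
        UniqueFactorizationMonoid (Localization.AtPrime (frobComap C S hSC x))) ∨
      (∀ P : Ideal ↥C, P.IsPrime → P.height = 1 → P ≤ frobComap C S hSC x →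
        algebraMap A₀ ↥C ϖ ∉ P →
        (∀ V : ValuationSubring F, IsLocAt P V → ¬ IsU V u) →
        ∃ f ∈ P, ∀ y ∈ P, ∃ s : ↥C, s ∉ frobComap C S hSC x ∧
          ∃ (n : ℕ) (c : ↥C), s * algebraMap A₀ ↥C ϖ ^ n * y = f * c) ∨
      ∃ f : F, f ≠ 0 ∧ ∀ P : Ideal ↥C, P.IsPrime → P ≤ frobComap C S hSC x →
        algebraMap A₀ ↥C ϖ ∉ P →
        ∃ a b : ↥C, a ∉ P ∧ b ∉ P ∧ u * (b : F) = (a : F) * f ^ m)
    (hpt : (∃ t : ↥C, t ∉ x ∧ (t : F) ∈ V₂.nonunits) ∨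
      (∃ t : ↥C, t ∉ x ∧ (t : F) ∈ V₁.nonunits) ∨
      ∀ c : ↥C, c ∈ frobComap C S hSC x ↔ c ∈ x) :
    ∃ g : F, g ≠ 0 ∧ ∃ a b : ↥C, a ∉ x ∧ b ∉ x ∧ S u / u * (b : F) = (a : F) * g ^ m := by
  haveI hxp : x.IsPrime := hx.isPrime
  have hxp' : (frobComap C S hSC x).IsPrime := frobComap_isPrime C S hSC x hx.isPrime
  have hcoe : ((algebraMap A₀ ↥C ϖ : ↥C) : F) = algebraMap A₀ F ϖ := rfl
  have hπ0 : algebraMap A₀ ↥C ϖ ≠ 0 := by
    intro h0
    apply hϖ0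
    rw [← hcoe, h0]
    rfl
  have hSπ : ∃ ε ∈ C, ((algebraMap A₀ ↥C ϖ : ↥C) : F) =
      S ((algebraMap A₀ ↥C ϖ : ↥C) : F) * ε := by
    obtain ⟨e, he⟩ := hSϖ
    refine ⟨algebraMap A₀ F ((e⁻¹ : A₀ˣ) : A₀), C.algebraMap_mem _, ?_⟩
    rw [hcoe, he, ← map_mul]
    congr 1
    rw [mul_comm (e : A₀) ϖ, mul_assoc, Units.mul_inv, mul_one]
  have hroot := hasRootAt_of_point3 ϖ hϖ0 C m u hu hdiv x hxp hok
  have hroot' := hasRootAt_of_point3 ϖ hϖ0 C m u hu hdiv (frobComap C S hSC x) hxp' hok'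
  have hvc := vertical_cases ϖ C V₁ V₂ hu₁ hu₂ hCV₁ hCV₂ hsat x
  -- a point which does not lie on the component `W` has no vertical local ring equal to `W`
  have hnot : ∀ (W : ValuationSubring F) (t : ↥C), t ∉ x → (t : F) ∈ W.nonunits →
      ∀ V ∈ heightOneVals F x, V ≠ W := by
    rintro W t htx htW V ⟨P, hP, hht, hPx, hPV⟩ rfl
    haveI := hP
    apply htx
    apply hPx
    by_contra htP
    have h1 : IsU V (algebraMap ↥C F t) := hPV.isU_of_notMem htP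
    rw [ValuationSubring.mem_nonunits_iff_or] at htW
    rcases htW with h | h
    · apply htP
      have : t = 0 := Subtype.ext h
      rw [this]
      exact P.zero_mem
    · exact h h1.2
  have hcase : (frobComap C S hSC x = x ∧
        ∀ V ∈ heightOneVals F x, ((algebraMap A₀ ↥C ϖ : ↥C) : F)⁻¹ ∉ V →
          ∀ z : F, S z ∈ V ↔ z ∈ V) ∨
      ∃ W : ValuationSubring F, (∀ z : F, S z ∈ W ↔ z ∈ W) ∧
        (∀ y : F, y ≠ 0 → ∃ n : ℤ, IsU W (y / ((algebraMap A₀ ↥C ϖ : ↥C) : F) ^ n)) ∧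
        ∀ V ∈ heightOneVals F x, ((algebraMap A₀ ↥C ϖ : ↥C) : F)⁻¹ ∉ V → V = W := by
    rcases hpt with ⟨t, htx, ht⟩ | ⟨t, htx, ht⟩ | hstab
    · right
      refine ⟨V₁, hSV₁, hsc₁, fun V hV hv => ?_⟩
      rcases hvc V hV hv with h | h
      · exact h
      · exact absurd h (hnot V₂ t htx ht V hV)
    · right
      refine ⟨V₂, hSV₂, hsc₂, fun V hV hv => ?_⟩
      rcases hvc V hV hv with h | h
      · exact absurd h (hnot V₁ t htx ht V hV)
      · exact h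
    · left
      refine ⟨Ideal.ext hstab, fun V hV hv z => ?_⟩
      rcases hvc V hV hv with rfl | rfl
      · exact hSV₁ z
      · exact hSV₂ z
  exact step1_frob_chart_root C x hxp (algebraMap A₀ ↥C ϖ) hπ0 S hSC hSπ m u hu hroot hroot'
    hcase

/-- **(HLOC-FROB)**: the Cartier form of `S u / u` at an `S`-stable closed point `x` of the
chart `C` from the local divisor datum (`H30.HLoc`, unfolded) of `u` at `x`.  No divisibility
hypothesis on `u` and no scale of the valuation rings is needed. -/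
theorem cartier_frob_of_hLoc_stable (ϖ : A₀) (hϖ0 : algebraMap A₀ F ϖ ≠ 0)
    (C : Subalgebra A₀ F) [IsIntegrallyClosed ↥C] [IsNoetherianRing ↥C] [IsFractionRing ↥C F]
    (V₁ V₂ : ValuationSubring F)
    (hu₁ : ∀ y : F, y ∈ V₁.nonunits ↔ ∃ d ∈ V₁, y = ϖ • d)
    (hu₂ : ∀ y : F, y ∈ V₂.nonunits ↔ ∃ d ∈ V₂, y = ϖ • d)
    (hCV₁ : ∀ c ∈ C, c ∈ V₁) (hCV₂ : ∀ c ∈ C, c ∈ V₂)
    (hsat : ∀ y : F, y ∈ V₁ → y ∈ V₂ → ϖ • y ∈ C → y ∈ C)
    (S : F ≃+* F) (hSC : ∀ c : F, S c ∈ C ↔ c ∈ C)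
    (hSV₁ : ∀ y : F, S y ∈ V₁ ↔ y ∈ V₁) (hSV₂ : ∀ y : F, S y ∈ V₂ ↔ y ∈ V₂)
    (hSϖ : ∃ e : A₀ˣ, S (algebraMap A₀ F ϖ) = algebraMap A₀ F (e * ϖ))
    (m : ℕ) (u : F) (hu : u ≠ 0)
    (x : Ideal ↥C) (hx : x.IsMaximal)
    (hstab : ∀ c : ↥C, c ∈ frobComap C S hSC x ↔ c ∈ x)
    (hloc : ∃ f : F, f ≠ 0 ∧ ∀ P : Ideal ↥C, P.IsPrime → P ≤ x → algebraMap A₀ ↥C ϖ ∉ P →
      ∃ a b : ↥C, a ∉ P ∧ b ∉ P ∧ u * (b : F) = (a : F) * f ^ m) :
    ∃ g : F, g ≠ 0 ∧ ∃ a b : ↥C, a ∉ x ∧ b ∉ x ∧ S u / u * (b : F) = (a : F) * g ^ m := by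
  haveI hxp : x.IsPrime := hx.isPrime
  have hcoe : ((algebraMap A₀ ↥C ϖ : ↥C) : F) = algebraMap A₀ F ϖ := rfl
  have hπ0 : algebraMap A₀ ↥C ϖ ≠ 0 := by
    intro h0
    apply hϖ0
    rw [← hcoe, h0]
    rfl
  have hSπ : ∃ ε ∈ C, ((algebraMap A₀ ↥C ϖ : ↥C) : F) =
      S ((algebraMap A₀ ↥C ϖ : ↥C) : F) * ε := by
    obtain ⟨e, he⟩ := hSϖ
    refine ⟨algebraMap A₀ F ((e⁻¹ : A₀ˣ) : A₀), C.algebraMap_mem _, ?_⟩
    rw [hcoe, he, ← map_mul]
    congr 1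
    rw [mul_comm (e : A₀) ϖ, mul_assoc, Units.mul_inv, mul_one]
  have hxx : frobComap C S hSC x = x := Ideal.ext hstab
  have hroot : HasRootAt (F := F) x (algebraMap A₀ ↥C ϖ) m u :=
    hasRootAt_of_datum x (algebraMap A₀ ↥C ϖ) hπ0 m u hloc
  have hroot' : HasRootAt (F := F) (frobComap C S hSC x) (algebraMap A₀ ↥C ϖ) m u := by
    rw [hxx]
    exact hroot
  have hvc := vertical_cases ϖ C V₁ V₂ hu₁ hu₂ hCV₁ hCV₂ hsat x
  refine step1_frob_chart_root C x hxp (algebraMap A₀ ↥C ϖ) hπ0 S hSC hSπ m u hu hroot hroot'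
    (Or.inl ⟨hxx, fun V hV hv z => ?_⟩)
  rcases hvc V hV hv with rfl | rfl
  · exact hSV₁ z
  · exact hSV₂ z

end Chart

end Fermat.Agent.S35.H7
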