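/-
S35-GEO — helper7.  The `FrobPoint` half of `H27.FrobModelStatement` at the level of a
two-valuation model (`H30.VData`), from the point leaves of Program B' (S34) AS THEY ARE and the
point types (`H27.PointFrob`).

* `mem_nonunits_map_iff`, `scale_of_arch`, `unif_map_of_base`, `hpt_of_pointFrob`,
  `both_of_both_frobComap` : the small abstract suppliers (an automorphism preserving a
  valuation ring preserves its nonunits; the scale of a valuation ring from its uniformiser and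
  the archimedean property; `S ϖ = e ϖ` from the Frobenius congruence on the base; the case
  distinction of `cartier_frob_of_point3` from `PointFrob`; `S⁻¹ x` lies on both components
  only if `x` does).
* `frob_cartier_chart` : the Cartier form of `S u / u` at a closed point `x` of a chart from the
  certificates `H30.Point3` at `x` and at `S⁻¹ x` and the type `PointFrob` of `x`.
* `frobPoint₁`, `frobPoint₂`, `frobPoint_of_points` : for a good model `D` with Frobenius data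
  `H27.FrobData`, a function `u₀` with (DIV), the S34 point leaves `D.OneComp`, `D.Cusp`,
  `D.Cross m u₀` and `PointFrob` at the closed points of the special fibre of both charts:
  `H27.FrobPoint` for `w = S₀ u₀ / u₀` at all these points (the last two conjuncts of
  `FrobModelStatement`).
-/
import Fermat.Agent.S34.H30.Leaves
import Fermat.Agent.S35.H27.FrobModel
import Fermat.Agent.S35.H7.Step1FrobRoot

set_option autoImplicit false
set_option linter.unusedSectionVars false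
set_option linter.unusedVariables false
set_option linter.style.haveILetI false

open AlgebraicCurve ModularCurve

namespace Fermat.Agent.S35.H7

open Fermat.Agent.S34.H27 Fermat.Agent.S34.H30 Fermat.Agent.S34.H10 Fermat.Agent.S34.H7
  Fermat.Agent.S35.H27

section Abstract

variable {A₀ : Type*} [CommRing A₀] {F : Type*} [Field F] [Algebra A₀ F]

/-- An automorphism preserving a valuation ring preserves its nonunits. -/
theorem mem_nonunits_map_iff (V : ValuationSubring F) (S : F ≃+* F)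
    (hSV : ∀ y : F, S y ∈ V ↔ y ∈ V) (z : F) : S z ∈ V.nonunits ↔ z ∈ V.nonunits := by
  rw [ValuationSubring.mem_nonunits_iff_or, ValuationSubring.mem_nonunits_iff_or, ← map_inv₀,
    hSV, map_eq_zero]

/-- The scale of a valuation ring with uniformiser `ϖ` in which every element becomes integral
after multiplication by a power of `ϖ`. -/
theorem scale_of_arch (ϖ : A₀) (hϖ0 : algebraMap A₀ F ϖ ≠ 0) (V : ValuationSubring F)
    (hu : ∀ y : F, y ∈ V.nonunits ↔ ∃ d ∈ V, y = ϖ • d)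
    (harch : ∀ y : F, ∃ n : ℕ, ϖ ^ n • y ∈ V) :
    ∀ y : F, y ≠ 0 → ∃ n : ℤ, IsU V (y / algebraMap A₀ F ϖ ^ n) := by
  have key : ∀ N : ℕ, ∀ z : F, z ∈ V → z ≠ 0 → algebraMap A₀ F ϖ ^ N * z⁻¹ ∈ V →
      ∃ i : ℕ, IsU V (z / algebraMap A₀ F ϖ ^ i) := by
    intro N
    induction N with
    | zero =>
      intro z hz hz0 h
      refine ⟨0, ?_⟩
      rw [pow_zero, one_mul] at h
      rw [pow_zero, div_one]
      exact ⟨hz, h⟩
    | succ N ih =>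
      intro z hz hz0 h
      by_cases hzi : z⁻¹ ∈ V
      · refine ⟨0, ?_⟩
        rw [pow_zero, div_one]
        exact ⟨hz, hzi⟩
      · have hzn : z ∈ V.nonunits := (ValuationSubring.mem_nonunits_iff_or V).2 (Or.inr hzi)
        obtain ⟨d, hd, hzd⟩ := (hu z).1 hzn
        rw [Algebra.smul_def] at hzd
        have hd0 : d ≠ 0 := by
          rintro rfl
          exact hz0 (by rw [hzd, mul_zero])
        have h' : algebraMap A₀ F ϖ ^ N * d⁻¹ ∈ V := by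
          have e : algebraMap A₀ F ϖ ^ N * d⁻¹ = algebraMap A₀ F ϖ ^ (N + 1) * z⁻¹ := by
            rw [hzd, pow_succ]
            field_simp
          rw [e]
          exact h
        obtain ⟨i, hi⟩ := ih d hd hd0 h'
        refine ⟨i + 1, ?_⟩
        have e : z / algebraMap A₀ F ϖ ^ (i + 1) = d / algebraMap A₀ F ϖ ^ i := by
          rw [hzd, pow_succ]
          field_simp
        rw [e]
        exact hi
  intro y hy
  obtain ⟨k, hk⟩ := harch y⁻¹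
  obtain ⟨l, hl⟩ := harch y
  rw [Algebra.smul_def, map_pow] at hk hl
  have hz0 : algebraMap A₀ F ϖ ^ l * y ≠ 0 := mul_ne_zero (pow_ne_zero _ hϖ0) hy
  obtain ⟨i, hi⟩ := key (k + l) _ hl hz0 (by
    have e : algebraMap A₀ F ϖ ^ (k + l) * (algebraMap A₀ F ϖ ^ l * y)⁻¹ =
        algebraMap A₀ F ϖ ^ k * y⁻¹ := by
      rw [pow_add]
      field_simp
    rw [e]
    exact hk)
  refine ⟨(i : ℤ) - l, ?_⟩
  have e : y / algebraMap A₀ F ϖ ^ ((i : ℤ) - l) =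
      algebraMap A₀ F ϖ ^ l * y / algebraMap A₀ F ϖ ^ i := by
    rw [zpow_sub₀ hϖ0, zpow_natCast, zpow_natCast]
    field_simp
  rw [e]
  exact hi

/-- **`S ϖ = e ϖ`** from the Frobenius congruence on the base: an automorphism `S` preserving a
valuation ring `V` with uniformiser `ϖ` and mapping the discrete valuation ring `A₀` into
itself, congruent to the `Q`-power map modulo `ϖ`, maps `ϖ` to a unit multiple of `ϖ`. -/
theorem unif_map_of_base [IsDomain A₀] [IsDiscreteValuationRing A₀] (ϖ : A₀)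
    (hϖ : Irreducible ϖ) (hϖ0 : algebraMap A₀ F ϖ ≠ 0) (V : ValuationSubring F)
    (hu : ∀ y : F, y ∈ V.nonunits ↔ ∃ d ∈ V, y = ϖ • d)
    (hAV : ∀ a : A₀, algebraMap A₀ F a ∈ V)
    (Q : ℕ) (hQ : Q ≠ 0) (S : F ≃+* F) (hSV : ∀ y : F, S y ∈ V ↔ y ∈ V)
    (hSA : ∀ a : A₀, ∃ a' : A₀, S (algebraMap A₀ F a) = algebraMap A₀ F a' ∧ ϖ ∣ a' - a ^ Q) :
    ∃ e : A₀ˣ, S (algebraMap A₀ F ϖ) = algebraMap A₀ F (e * ϖ) := by
  obtain ⟨a', ha', hdvd⟩ := hSA ϖ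
  have h1 : ϖ ∣ a' := by
    have h2 : ϖ ∣ a' - ϖ ^ Q + ϖ ^ Q := dvd_add hdvd (dvd_pow_self ϖ hQ)
    rwa [sub_add_cancel] at h2
  obtain ⟨b, rfl⟩ := h1
  by_cases hb : IsUnit b
  · obtain ⟨e, rfl⟩ := hb
    exact ⟨e, by rw [ha', mul_comm]⟩
  · exfalso
    have hbm : b ∈ IsLocalRing.maximalIdeal A₀ := (IsLocalRing.mem_maximalIdeal b).2 hb
    rw [(IsDiscreteValuationRing.irreducible_iff_uniformizer ϖ).1 hϖ,
      Ideal.mem_span_singleton] at hbm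
    obtain ⟨b', rfl⟩ := hbm
    have hyn : algebraMap A₀ F ϖ ∈ V.nonunits :=
      (hu _).2 ⟨1, V.one_mem, by rw [Algebra.smul_def, mul_one]⟩
    have h2 : S.symm (algebraMap A₀ F ϖ) ∈ V.nonunits :=
      (mem_nonunits_map_iff V S hSV _).1 (by rw [S.apply_symm_apply]; exact hyn)
    obtain ⟨d, hd, hd'⟩ := (hu _).1 h2
    rw [Algebra.smul_def] at hd'
    have h3 : algebraMap A₀ F ϖ = S (algebraMap A₀ F ϖ) * S d := by
      rw [← map_mul, ← hd', S.apply_symm_apply]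
    have h4 : (1 : F) = algebraMap A₀ F ϖ * (algebraMap A₀ F b' * S d) := by
      rw [ha', map_mul, map_mul] at h3
      have h5 : algebraMap A₀ F ϖ * 1 =
          algebraMap A₀ F ϖ * (algebraMap A₀ F ϖ * (algebraMap A₀ F b' * S d)) := by
        rw [mul_one]
        calc algebraMap A₀ F ϖ
            = algebraMap A₀ F ϖ * (algebraMap A₀ F ϖ * algebraMap A₀ F b') * S d := h3
          _ = algebraMap A₀ F ϖ * (algebraMap A₀ F ϖ * (algebraMap A₀ F b' * S d)) := by ring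
      exact mul_left_cancel₀ hϖ0 h5
    have h5 : algebraMap A₀ F ϖ * (algebraMap A₀ F b' * S d) ∈ V.nonunits :=
      (hu _).2 ⟨algebraMap A₀ F b' * S d, V.mul_mem _ _ (hAV b') ((hSV d).2 hd), by
        rw [Algebra.smul_def]⟩
    rw [← h4, ValuationSubring.mem_nonunits_iff_or] at h5
    rcases h5 with h | h
    · exact one_ne_zero h
    · exact h (by rw [inv_one]; exact V.one_mem)

/-- The case distinction of `cartier_frob_of_point3` from the type `PointFrob` of the point: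
a one-component point is off the other component; a crossing point is `S`-stable. -/
theorem hpt_of_pointFrob (C : Subalgebra A₀ F) (V₁ V₂ : ValuationSubring F) (S : F ≃+* F)
    (hSC : ∀ c : F, S c ∈ C ↔ c ∈ C) (Q : ℕ) (hQ : Q ≠ 0) (m : ℕ) (x : Ideal ↥C)
    (hx : x.IsPrime) (h : PointFrob C V₁ V₂ S Q m x) :
    (∃ t : ↥C, t ∉ x ∧ (t : F) ∈ V₂.nonunits) ∨
      (∃ t : ↥C, t ∉ x ∧ (t : F) ∈ V₁.nonunits) ∨
      ∀ c : ↥C, c ∈ frobComap C S hSC x ↔ c ∈ x := by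
  rcases h with h | h | h
  · exact Or.inl h.1
  · exact Or.inr (Or.inl h.1)
  · refine Or.inr (Or.inr fun c => ?_)
    obtain ⟨d, hd, hSd⟩ := h.2.2.1 c
    rw [mem_frobComap]
    have e : (⟨S (c : F), (hSC c).2 c.2⟩ : ↥C) = c ^ Q + d := by
      apply Subtype.ext
      show S (c : F) = ((c ^ Q + d : ↥C) : F)
      rw [hSd]
      rfl
    rw [e]
    constructor
    · intro hmem
      have h1 : c ^ Q ∈ x := by
        have h2 := x.sub_mem hmem hd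
        rwa [add_sub_cancel_right] at h2
      exact hx.mem_of_pow_mem Q h1
    · intro hc
      exact x.add_mem (Ideal.pow_mem_of_mem x hc Q (Nat.pos_of_ne_zero hQ)) hd

end Abstract

section Chart

variable {A₀ F₀ : Type} [CommRing A₀] [Field F₀] [Algebra A₀ F₀]

/-- If `S⁻¹ x` lies on both components, so does `x`. -/
theorem both_of_both_frobComap (C : Subalgebra A₀ F₀) (V₁ V₂ : ValuationSubring F₀)
    (S : F₀ ≃+* F₀) (hSC : ∀ c : F₀, S c ∈ C ↔ c ∈ C)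
    (hSV₁ : ∀ y : F₀, S y ∈ V₁ ↔ y ∈ V₁) (hSV₂ : ∀ y : F₀, S y ∈ V₂ ↔ y ∈ V₂)
    (x : Ideal ↥C) (h : Both V₁ V₂ C (frobComap C S hSC x)) : Both V₁ V₂ C x := by
  have key : ∀ (W : ValuationSubring F₀), (∀ y : F₀, S y ∈ W ↔ y ∈ W) →
      (∀ c : ↥C, (c : F₀) ∈ W.nonunits → c ∈ frobComap C S hSC x) →
      ∀ c : ↥C, (c : F₀) ∈ W.nonunits → c ∈ x := by
    intro W hSW hW c hc
    have hc' : S.symm (c : F₀) ∈ C := (hSC _).1 (by rw [S.apply_symm_apply]; exact c.2)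
    have hn : S.symm (c : F₀) ∈ W.nonunits :=
      (mem_nonunits_map_iff W S hSW _).1 (by rw [S.apply_symm_apply]; exact hc)
    have h1 := hW ⟨S.symm (c : F₀), hc'⟩ hn
    rw [mem_frobComap] at h1
    have e : (⟨S ((⟨S.symm (c : F₀), hc'⟩ : ↥C) : F₀), (hSC _).2 hc'⟩ : ↥C) = c :=
      Subtype.ext (S.apply_symm_apply _)
    rw [e] at h1
    exact h1
  exact ⟨key V₁ hSV₁ h.1, key V₂ hSV₂ h.2⟩

variable [IsDomain A₀] [IsDiscreteValuationRing A₀] [FaithfulSMul A₀ F₀]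

/-- **The Cartier form of `S u / u` at a closed point of a chart**, from the local certificates
(`H30.Point3`) of `u` at `x` and at `S⁻¹ x` and the type (`H27.PointFrob`) of `x`. -/
theorem frob_cartier_chart (ϖ : A₀) (hϖ : Irreducible ϖ) (C : Subalgebra A₀ F₀)
    [IsIntegrallyClosed ↥C] [IsNoetherianRing ↥C]
    (hfrac : ∀ y : F₀, ∃ a ∈ C, ∃ b ∈ C, b ≠ 0 ∧ y = a / b)
    (V₁ V₂ : ValuationSubring F₀) (hu₁ : IsUnif ϖ V₁) (hu₂ : IsUnif ϖ V₂)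
    (hCV₁ : ∀ c ∈ C, c ∈ V₁) (hCV₂ : ∀ c ∈ C, c ∈ V₂)
    (hsat : ∀ y : F₀, y ∈ V₁ → y ∈ V₂ → ϖ • y ∈ C → y ∈ C)
    (harch₁ : ∀ y : F₀, ∃ n : ℕ, ϖ ^ n • y ∈ V₁) (harch₂ : ∀ y : F₀, ∃ n : ℕ, ϖ ^ n • y ∈ V₂)
    (Q : ℕ) (hQ : Q ≠ 0) (S : F₀ ≃+* F₀) (hSC : ∀ c : F₀, S c ∈ C ↔ c ∈ C)
    (hSV₁ : ∀ y : F₀, S y ∈ V₁ ↔ y ∈ V₁) (hSV₂ : ∀ y : F₀, S y ∈ V₂ ↔ y ∈ V₂)
    (hSA : ∀ a : A₀, ∃ a' : A₀, S (algebraMap A₀ F₀ a) = algebraMap A₀ F₀ a' ∧ ϖ ∣ a' - a ^ Q)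
    (m : ℕ) (u : F₀) (hu : u ≠ 0)
    (hdiv : ∀ V : ValuationSubring F₀, (algebraMap A₀ F₀ ϖ)⁻¹ ∈ V →
      (∀ a : A₀, algebraMap A₀ F₀ a ∈ V) → IsDiscreteValuationRing V →
      ∃ t : F₀, t ≠ 0 ∧ u / t ^ m ∈ V ∧ (u / t ^ m)⁻¹ ∈ V)
    (x : Ideal ↥C) (hx : x.IsMaximal)
    (hok : Point3 ϖ m C x hx.isPrime u)
    (hok' : Point3 ϖ m C (frobComap C S hSC x) (frobComap_isPrime C S hSC x hx.isPrime) u)
    (hpf : PointFrob C V₁ V₂ S Q m x) :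
    ∃ g : F₀, g ≠ 0 ∧ ∃ a b : ↥C, a ∉ x ∧ b ∉ x ∧ S u / u * (b : F₀) = (a : F₀) * g ^ m := by
  haveI : IsFractionRing ↥C F₀ := Fermat.Agent.S34.H54.isFractionRing_of_forall_div C hfrac
  have hϖF : algebraMap A₀ F₀ ϖ ≠ 0 := fun h =>
    hϖ.ne_zero (FaithfulSMul.algebraMap_injective A₀ F₀ (by rw [h, map_zero]))
  have hSϖ := unif_map_of_base ϖ hϖ hϖF V₁ hu₁ (fun a => hCV₁ _ (C.algebraMap_mem a)) Q hQ S
    hSV₁ hSA
  have hsc₁ := scale_of_arch ϖ hϖF V₁ hu₁ harch₁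
  have hsc₂ := scale_of_arch ϖ hϖF V₂ hu₂ harch₂
  have hpt := hpt_of_pointFrob C V₁ V₂ S hSC Q hQ m x hx.isPrime hpf
  refine cartier_frob_of_point3 ϖ hϖF C V₁ V₂ hu₁ hu₂ hCV₁ hCV₂ hsat hsc₁ hsc₂ S hSC hSV₁ hSV₂
    hSϖ m u hu hdiv x hx ?_ ?_ hpt
  · rcases hok with h | h | h
    · exact Or.inl h
    · exact Or.inr (Or.inl h)
    · exact Or.inr (Or.inr h)
  · rcases hok' with h | h | h
    · exact Or.inl h
    · exact Or.inr (Or.inl h)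
    · exact Or.inr (Or.inr h)

end Chart

section Model

variable {M : ℕ}

/-- `S₀` maps the uniformiser of the base to a multiple of itself. -/
theorem frobData_unif (D : VData M) (m : ℕ) (τ : FF M ≃+* FF M) (hD : D.Good m τ)
    (Q : ℕ) (hQ : Q ≠ 0) (S : FF M ≃+* FF M) (S₀ : D.F₀ ≃+* D.F₀) (hF : FrobData D Q S S₀) :
    ∃ e : D.A₀ˣ, S₀ (algebraMap D.A₀ D.F₀ D.ϖ) = algebraMap D.A₀ D.F₀ (e * D.ϖ) := by
  have hϖF : algebraMap D.A₀ D.F₀ D.ϖ ≠ 0 := fun h =>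
    hD.irr.ne_zero (FaithfulSMul.algebraMap_injective D.A₀ D.F₀ (by rw [h, map_zero]))
  exact unif_map_of_base D.ϖ hD.irr hϖF D.V₁ hD.unif₁
    (fun a => hD.le₁₁ _ (D.C₁.algebraMap_mem a)) Q hQ S₀ hF.S_V₁ hF.S_base

/-- The local certificate at every closed point of the special fibre of the finite chart, from
the point leaves of Program B'. -/
theorem point3_of_leaves₁ (D : VData M) (m : ℕ) (u₀ : D.F₀) (hOne : D.OneComp)
    (hCross : D.Cross m u₀) (x : Ideal ↥D.C₁) (hx : x.IsMaximal)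
    (hϖx : algebraMap D.A₀ ↥D.C₁ D.ϖ ∈ x) : Point3 D.ϖ m D.C₁ x hx.isPrime u₀ := by
  by_cases hB : Both D.V₁ D.V₂ D.C₁ x
  · rcases hCross x hx hϖx hB with h | h
    · exact Or.inr (Or.inr h)
    · exact Or.inr (Or.inl h)
  · exact Or.inl (hOne.1 x hx hϖx hB)

/-- **`FrobPoint` at the closed points of the finite chart.** -/
theorem frobPoint₁ (D : VData M) (m : ℕ) (τ : FF M ≃+* FF M) (hD : D.Good m τ)
    (Q : ℕ) (hQ : Q ≠ 0) (S : FF M ≃+* FF M) (S₀ : D.F₀ ≃+* D.F₀) (hF : FrobData D Q S S₀)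
    (u₀ : D.F₀) (hu₀0 : u₀ ≠ 0) (hDiv : D.Div m u₀) (hOne : D.OneComp) (hCross : D.Cross m u₀)
    (x : Ideal ↥D.C₁) (hx : x.IsMaximal) (hϖx : algebraMap D.A₀ ↥D.C₁ D.ϖ ∈ x)
    (hpf : PointFrob D.C₁ D.V₁ D.V₂ S₀ Q m x) :
    FrobPoint D.C₁ D.V₁ D.V₂ S₀ Q m (S₀ u₀ / u₀) x := by
  haveI := hD.icl₁
  haveI := hD.noeth₁
  refine ⟨?_, hpf⟩
  obtain ⟨e, he⟩ := frobData_unif D m τ hD Q hQ S S₀ hF
  have hx' := frobComap_isMaximal D.C₁ S₀ hF.S_mem₁ x hx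
  have hϖx' := unif_mem_frobComap D.C₁ S₀ hF.S_mem₁ x D.ϖ ⟨e, he⟩ hϖx
  exact frob_cartier_chart D.ϖ hD.irr D.C₁ hD.frac₁ D.V₁ D.V₂ hD.unif₁ hD.unif₂ hD.le₁₁
    hD.le₁₂ hD.sat₁ hF.arch₁ hF.arch₂ Q hQ S₀ hF.S_mem₁ hF.S_V₁ hF.S_V₂ hF.S_base m u₀ hu₀0
    hDiv x hx (point3_of_leaves₁ D m u₀ hOne hCross x hx hϖx)
    (point3_of_leaves₁ D m u₀ hOne hCross _ hx' hϖx') hpf

/-- **`FrobPoint` at the closed points of the chart at infinity**: at the points on the divisor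
`j = ∞` (one-component points by `D.Cusp`) from the certificates, at the other points by transfer
from the finite chart. -/
theorem frobPoint₂ (D : VData M) (m : ℕ) (τ : FF M ≃+* FF M) (hD : D.Good m τ)
    (Q : ℕ) (hQ : Q ≠ 0) (S : FF M ≃+* FF M) (S₀ : D.F₀ ≃+* D.F₀) (hF : FrobData D Q S S₀)
    (u₀ : D.F₀) (hu₀0 : u₀ ≠ 0) (hDiv : D.Div m u₀) (hOne : D.OneComp) (hCusp : D.Cusp)
    (hc₁ : ∀ x : Ideal ↥D.C₁, x.IsMaximal → algebraMap D.A₀ ↥D.C₁ D.ϖ ∈ x →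
      ∃ g : D.F₀, g ≠ 0 ∧ ∃ a b : ↥D.C₁, a ∉ x ∧ b ∉ x ∧
        S₀ u₀ / u₀ * (b : D.F₀) = (a : D.F₀) * g ^ m)
    (x : Ideal ↥D.C₂) (hx : x.IsMaximal) (hϖx : algebraMap D.A₀ ↥D.C₂ D.ϖ ∈ x)
    (hpf : PointFrob D.C₂ D.V₁ D.V₂ S₀ Q m x) :
    FrobPoint D.C₂ D.V₁ D.V₂ S₀ Q m (S₀ u₀ / u₀) x := by
  haveI := hD.icl₂
  haveI := hD.noeth₂
  refine ⟨?_, hpf⟩
  by_cases hjx : (⟨D.j⁻¹, hD.j_mem₂⟩ : ↥D.C₂) ∈ x
  · obtain ⟨e, he⟩ := frobData_unif D m τ hD Q hQ S S₀ hF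
    have hx' := frobComap_isMaximal D.C₂ S₀ hF.S_mem₂ x hx
    have hϖx' := unif_mem_frobComap D.C₂ S₀ hF.S_mem₂ x D.ϖ ⟨e, he⟩ hϖx
    have hnB : ¬ Both D.V₁ D.V₂ D.C₂ x := hCusp x hx hϖx ⟨_, hjx, rfl⟩
    have hnB' : ¬ Both D.V₁ D.V₂ D.C₂ (frobComap D.C₂ S₀ hF.S_mem₂ x) := fun h =>
      hnB (both_of_both_frobComap D.C₂ D.V₁ D.V₂ S₀ hF.S_mem₂ hF.S_V₁ hF.S_V₂ x h)
    exact frob_cartier_chart D.ϖ hD.irr D.C₂ hD.frac₂ D.V₁ D.V₂ hD.unif₁ hD.unif₂ hD.le₂₁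
      hD.le₂₂ hD.sat₂ hF.arch₁ hF.arch₂ Q hQ S₀ hF.S_mem₂ hF.S_V₁ hF.S_V₂ hF.S_base m u₀ hu₀0
      hDiv x hx (Or.inl (hOne.2 x hx hϖx hnB)) (Or.inl (hOne.2 _ hx' hϖx' hnB')) hpf
  · exact cartier_transfer D.ϖ D.j D.C₁ D.C₂ hD.j_mem₂ hD.glue m (S₀ u₀ / u₀) hc₁ x
      hx.isPrime hϖx hjx

/-- **The `FrobPoint` half of `H27.FrobModelStatement`** for a good two-valuation model with
Frobenius data, from (DIV), the point leaves of Program B' (`D.OneComp`, `D.Cusp`,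
`D.Cross m u₀`) and the types of the closed points of the special fibre. -/
theorem frobPoint_of_points (D : VData M) (m : ℕ) (τ : FF M ≃+* FF M) (hD : D.Good m τ)
    (Q : ℕ) (hQ : Q ≠ 0) (S : FF M ≃+* FF M) (S₀ : D.F₀ ≃+* D.F₀) (hF : FrobData D Q S S₀)
    (u₀ : D.F₀) (hu₀0 : u₀ ≠ 0) (hDiv : D.Div m u₀) (hOne : D.OneComp) (hCusp : D.Cusp)
    (hCross : D.Cross m u₀)
    (hpf₁ : ∀ x : Ideal ↥D.C₁, x.IsMaximal → algebraMap D.A₀ ↥D.C₁ D.ϖ ∈ x →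
      PointFrob D.C₁ D.V₁ D.V₂ S₀ Q m x)
    (hpf₂ : ∀ x : Ideal ↥D.C₂, x.IsMaximal → algebraMap D.A₀ ↥D.C₂ D.ϖ ∈ x →
      PointFrob D.C₂ D.V₁ D.V₂ S₀ Q m x) :
    (∀ x : Ideal ↥D.C₁, x.IsMaximal → algebraMap D.A₀ ↥D.C₁ D.ϖ ∈ x →
      FrobPoint D.C₁ D.V₁ D.V₂ S₀ Q m (S₀ u₀ / u₀) x) ∧
    (∀ x : Ideal ↥D.C₂, x.IsMaximal → algebraMap D.A₀ ↥D.C₂ D.ϖ ∈ x →
      FrobPoint D.C₂ D.V₁ D.V₂ S₀ Q m (S₀ u₀ / u₀) x) := by
  have h₁ : ∀ x : Ideal ↥D.C₁, x.IsMaximal → algebraMap D.A₀ ↥D.C₁ D.ϖ ∈ x →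
      FrobPoint D.C₁ D.V₁ D.V₂ S₀ Q m (S₀ u₀ / u₀) x := fun x hx hϖx =>
    frobPoint₁ D m τ hD Q hQ S S₀ hF u₀ hu₀0 hDiv hOne hCross x hx hϖx (hpf₁ x hx hϖx)
  exact ⟨h₁, fun x hx hϖx =>
    frobPoint₂ D m τ hD Q hQ S S₀ hF u₀ hu₀0 hDiv hOne hCusp
      (fun y hy hϖy => (h₁ y hy hϖy).1) x hx hϖx (hpf₂ x hx hϖx)⟩

end Model

end Fermat.Agent.S35.H7
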